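import Fermat.Agent.S23.Defs

/-!
# S23: `q`-expansions of "nice" functions (period 1, holomorphic, bounded at `i∞`)
-/

set_option autoImplicit false

namespace Fermat.Agent.S23

open UpperHalfPlane ModularForm Filter
open scoped MatrixGroups Manifold

/-- `F` has period one, is holomorphic on the upper half plane and bounded at `i∞`. -/
structure QNice (F : ℍ → ℂ) : Prop where
  per : Function.Periodic (F ∘ ofComplex) 1
  holo : MDiff F
  bdd : IsBoundedAtImInfty F

namespace QNice

variable {F G : ℍ → ℂ}

theorem analyticAt (hF : QNice F) : AnalyticAt ℂ (cuspFunction 1 F) 0 :=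
  analyticAt_cuspFunction_zero one_pos hF.per hF.holo hF.bdd

theorem add (hF : QNice F) (hG : QNice G) : QNice (F + G) where
  per := fun z => by
    have h1 := hF.per z
    have h2 := hG.per z
    simp only [Function.comp_apply, Pi.add_apply] at h1 h2 ⊢
    rw [h1, h2]
  holo := hF.holo.add hG.holo
  bdd := BoundedAtFilter.add hF.bdd hG.bdd

theorem mul (hF : QNice F) (hG : QNice G) : QNice (F * G) where
  per := fun z => by
    have h1 := hF.per z
    have h2 := hG.per z
    simp only [Function.comp_apply, Pi.mul_apply] at h1 h2 ⊢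
    rw [h1, h2]
  holo := hF.holo.mul hG.holo
  bdd := BoundedAtFilter.mul hF.bdd hG.bdd

theorem const (a : ℂ) : QNice (fun _ => a) where
  per := fun _ => rfl
  holo := fun _ => mdifferentiableAt_const
  bdd := const_boundedAtFilter atImInfty a

theorem zero : QNice (0 : ℍ → ℂ) := const 0

theorem one : QNice (1 : ℍ → ℂ) := const 1

theorem smul (a : ℂ) (hF : QNice F) : QNice (a • F) := by
  have : a • F = (fun _ => a) * F := by ext z; simp
  rw [this]
  exact (const a).mul hF

theorem neg (hF : QNice F) : QNice (-F) := by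
  have : -F = (-1 : ℂ) • F := by ext z; simp
  rw [this]
  exact hF.smul _

theorem sub (hF : QNice F) (hG : QNice G) : QNice (F - G) := by
  rw [sub_eq_add_neg]
  exact hF.add hG.neg

theorem pow (hF : QNice F) (n : ℕ) : QNice (F ^ n) := by
  induction n with
  | zero => simpa using one
  | succ n ih => rw [pow_succ]; exact ih.mul hF

theorem sum {ι : Type*} (s : Finset ι) {f : ι → ℍ → ℂ} (h : ∀ i ∈ s, QNice (f i)) :
    QNice (∑ i ∈ s, f i) := by
  classical
  induction s using Finset.induction_on with
  | empty => simpa using zero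
  | insert i t hi IH =>
    rw [Finset.sum_insert hi]
    exact (h i (Finset.mem_insert_self i t)).add
      (IH fun j hj => h j (Finset.mem_insert_of_mem hj))

theorem qExpansion_add (hF : QNice F) (hG : QNice G) :
    qExpansion 1 (F + G) = qExpansion 1 F + qExpansion 1 G :=
  UpperHalfPlane.qExpansion_add hF.analyticAt hG.analyticAt

theorem qExpansion_mul (hF : QNice F) (hG : QNice G) :
    qExpansion 1 (F * G) = qExpansion 1 F * qExpansion 1 G :=
  UpperHalfPlane.qExpansion_mul hF.analyticAt hG.analyticAt

theorem qExpansion_smul (a : ℂ) (hF : QNice F) :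
    qExpansion 1 (a • F) = a • qExpansion 1 F :=
  UpperHalfPlane.qExpansion_smul hF.analyticAt a

theorem qExpansion_neg (hF : QNice F) :
    qExpansion 1 (-F) = -qExpansion 1 F :=
  UpperHalfPlane.qExpansion_neg hF.analyticAt

theorem qExpansion_sub (hF : QNice F) (hG : QNice G) :
    qExpansion 1 (F - G) = qExpansion 1 F - qExpansion 1 G :=
  UpperHalfPlane.qExpansion_sub hF.analyticAt hG.analyticAt

theorem qExpansion_pow (hF : QNice F) (n : ℕ) :
    qExpansion 1 (F ^ n) = qExpansion 1 F ^ n := by
  induction n with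
  | zero => simpa using UpperHalfPlane.qExpansion_one 1
  | succ n ih => rw [pow_succ, (hF.pow n).qExpansion_mul hF, ih, pow_succ]

theorem qExpansion_sum {ι : Type*} (s : Finset ι) {f : ι → ℍ → ℂ} (h : ∀ i ∈ s, QNice (f i)) :
    qExpansion 1 (∑ i ∈ s, f i) = ∑ i ∈ s, qExpansion 1 (f i) := by
  classical
  induction s using Finset.induction_on with
  | empty => simpa using UpperHalfPlane.qExpansion_zero 1
  | insert i t hi IH =>
    rw [Finset.sum_insert hi, Finset.sum_insert hi,
      (h i (Finset.mem_insert_self i t)).qExpansion_add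
        (sum t fun j hj => h j (Finset.mem_insert_of_mem hj)),
      IH fun j hj => h j (Finset.mem_insert_of_mem hj)]

theorem eq_zero_of_qExpansion_eq_zero (hF : QNice F) (h : qExpansion 1 F = 0) : F = 0 :=
  (qExpansion_eq_zero_iff one_pos hF.per hF.holo hF.bdd).mp h

theorem eq_of_qExpansion_eq (hF : QNice F) (hG : QNice G)
    (h : qExpansion 1 F = qExpansion 1 G) : F = G := by
  have := (hF.sub hG).eq_zero_of_qExpansion_eq_zero (by rw [hF.qExpansion_sub hG, h, sub_self])
  exact sub_eq_zero.mp this

end QNice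

/-- Modular forms on a group having `1` as a strict period are nice. -/
theorem qnice_of_modularForm {Γ : Subgroup (GL (Fin 2) ℝ)} {k : ℤ} {F' : Type*} [FunLike F' ℍ ℂ]
    [ModularFormClass F' Γ k] (hΓ : (1 : ℝ) ∈ Γ.strictPeriods) (f : F') : QNice ⇑f :=
  have : Fact (IsCusp OnePoint.infty Γ) := ⟨Γ.isCusp_of_mem_strictPeriods one_pos hΓ⟩
  { per := SlashInvariantFormClass.periodic_comp_ofComplex f hΓ
    holo := ModularFormClass.holo f
    bdd := ModularFormClass.bdd_at_infty f }

theorem one_mem_strictPeriods_Gamma0 (N : ℕ) :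
    (1 : ℝ) ∈ (CongruenceSubgroup.Gamma0 N : Subgroup (GL (Fin 2) ℝ)).strictPeriods := by
  simp [CongruenceSubgroup.strictPeriods_Gamma0]

theorem qnice_Gamma0 {N : ℕ} {k : ℤ} {F' : Type*} [FunLike F' ℍ ℂ]
    [ModularFormClass F' (CongruenceSubgroup.Gamma0 N : Subgroup (GL (Fin 2) ℝ)) k] (f : F') :
    QNice ⇑f :=
  qnice_of_modularForm (one_mem_strictPeriods_Gamma0 N) f

theorem qnice_SL {k : ℤ} {F' : Type*} [FunLike F' ℍ ℂ] [ModularFormClass F' 𝒮ℒ k] (f : F') :
    QNice ⇑f :=
  qnice_of_modularForm one_mem_strictPeriods_SL f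

end Fermat.Agent.S23
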