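import Fermat.Agent.S23.Defs
import Fermat.Prelude.Def_ModularForm_HeckeOperator
import Fermat.Prelude.Thm_CongruenceSubgroup_one_mem_strictPeriods_Gamma0
import Fermat.Prelude.Sol.S_UpperHalfPlane_qCoeff_heckeT

/-!
# S23, piece (E): the form `t_N`

For `N ≥ 1` we construct `t_N = E₄ ∣[4] diag(N, 1)`, i.e. `τ ↦ N ^ 3 * E₄ (N τ)`, a modular form
of weight `4` and level `Γ₀(N)` with integral `q`-expansion whose stabiliser in `SL(2, ℤ)` (for
the weight `4` slash action) is exactly `Γ₀(N)`.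
-/

set_option autoImplicit false

namespace Fermat.Agent.S23

open UpperHalfPlane ModularForm CongruenceSubgroup
open scoped MatrixGroups

/-- Restriction of the level of a modular form to a smaller subgroup. -/
noncomputable def tN_restrict {Γ Γ' : Subgroup (GL (Fin 2) ℝ)} {k : ℤ} (h : Γ' ≤ Γ)
    (f : ModularForm Γ k) : ModularForm Γ' k where
  toFun := f
  slash_action_eq' γ hγ := f.slash_action_eq' γ (h hγ)
  holo' := f.holo'
  bdd_at_cusps' hc := f.bdd_at_cusps' (hc.mono h)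

theorem tN_coe_restrict {Γ Γ' : Subgroup (GL (Fin 2) ℝ)} {k : ℤ} (h : Γ' ≤ Γ)
    (f : ModularForm Γ k) : ⇑(tN_restrict h f) = ⇑f := rfl

open ConjAct Pointwise in
/-- `Γ₀(N)` is contained in the conjugate of `SL(2, ℤ)` by `diag(N, 1)`. -/
theorem tN_Gamma0_le (N : ℕ) [NeZero N] :
    Subgroup.map (Matrix.SpecialLinearGroup.mapGL ℝ) (Gamma0 N) ≤
      toConjAct (heckeDiagMatrix N)⁻¹ • 𝒮ℒ := by
  rintro x ⟨γ, hγ, rfl⟩
  rw [map_inv, Subgroup.mem_inv_pointwise_smul_iff, toConjAct_smul]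
  have hN : N ≠ 0 := NeZero.ne N
  rw [SetLike.mem_coe, Gamma0_mem, ZMod.intCast_zmod_eq_zero_iff_dvd] at hγ
  obtain ⟨c', hc'⟩ := hγ
  have hdet := Matrix.SpecialLinearGroup.det_coe γ
  rw [Matrix.det_fin_two] at hdet
  refine ⟨⟨!![γ 0 0, N * γ 0 1; c', γ 1 1], ?_⟩, ?_⟩
  · rw [Matrix.det_fin_two_of]
    rw [hc'] at hdet
    linarith
  · rw [eq_mul_inv_iff_mul_eq]
    apply Matrix.GeneralLinearGroup.ext
    intro i j
    simp only [Matrix.GeneralLinearGroup.coe_mul, val_heckeDiagMatrix hN, Matrix.mul_apply,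
      Fin.sum_univ_two]
    fin_cases i <;> fin_cases j <;> simp [Matrix.SpecialLinearGroup.mapGL, hc'] <;> ring

/-- `t_N = E₄ ∣ diag(N, 1)`, i.e. `τ ↦ N ^ 3 * E₄ (N τ)`, as a modular form of level `Γ₀(N)`. -/
noncomputable def tN_form (N : ℕ) [NeZero N] : ModularForm (Gamma0 N) 4 :=
  tN_restrict (tN_Gamma0_le N) (ModularForm.translate E₄ (heckeDiagMatrix N))

theorem tN_coe_form (N : ℕ) [NeZero N] :
    ⇑(tN_form N) = ⇑E₄ ∣[(4 : ℤ)] heckeDiagMatrix N := rfl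

/-- The `q`-expansion coefficients of `E₄` are integers. -/
theorem tN_E4_coeff_int (m : ℕ) : ∃ z : ℤ, (qExpansion 1 E₄).coeff m = (z : ℂ) := by
  rw [EisensteinSeries.E_qExpansion_coeff _ ⟨2, rfl⟩ m]
  split_ifs
  · exact ⟨1, by simp⟩
  · refine ⟨240 * (ArithmeticFunction.sigma 3 m : ℤ), ?_⟩
    norm_num [show bernoulli 4 = -1 / 30 by decide +kernel]

/-- The `q`-expansion of `t_N` is integral. -/
theorem tN_isIntPS (N : ℕ) [NeZero N] : IsIntPS (qExpansion 1 (tN_form N)) := by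
  have hN : N ≠ 0 := NeZero.ne N
  intro n
  have hper : Function.Periodic (⇑E₄ ∘ ofComplex) 1 :=
    SlashInvariantFormClass.periodic_comp_ofComplex E₄ one_mem_strictPeriods_SL
  have hhol := ModularFormClass.holo E₄
  have hbdd : IsBoundedAtImInfty E₄ := ModularFormClass.bdd_at_infty E₄
  have hsum : ∀ τ : ℍ, HasSum (fun m ↦ (if N ∣ m then
      (N : ℂ) ^ ((4 : ℤ) - 1) * (qExpansion 1 E₄).coeff (m / N) else 0) •
        Function.Periodic.qParam 1 τ ^ m) (tN_form N τ) := by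
    intro τ
    have := P2MW.S_UpperHalfPlane_qCoeff_heckeT.M4cP1W2.hasSum_diag hN hper hhol hbdd 4 τ
    rw [tN_coe_form, slash_heckeDiagMatrix_apply 4 hN]
    convert this using 2 with m
    simp only [ModularFormClass.qCoeff, smul_eq_mul, ite_mul, zero_mul]
  have := ModularFormClass.qExpansion_coeff_unique one_pos
    (CongruenceSubgroup.one_mem_strictPeriods_Gamma0 N) hsum n
  rw [← this]
  split_ifs
  · obtain ⟨z, hz⟩ := tN_E4_coeff_int (n / N)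
    exact ⟨N ^ 3 * z, by rw [hz]; push_cast; norm_num⟩
  · exact ⟨0, by simp⟩

/-- `E₄` tends to `1` at `i∞`. -/
theorem tN_E4_tendsto : Filter.Tendsto (⇑E₄) atImInfty (nhds 1) := by
  have hper : Function.Periodic (⇑E₄ ∘ ofComplex) 1 :=
    SlashInvariantFormClass.periodic_comp_ofComplex E₄ one_mem_strictPeriods_SL
  have han := ModularFormClass.analyticAt_cuspFunction_zero E₄ one_pos one_mem_strictPeriods_SL
  have h0 : cuspFunction 1 E₄ 0 = 1 := by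
    have := EisensteinSeries.E_qExpansion_coeff_zero (k := 4) (by norm_num) ⟨2, rfl⟩
    simpa [qExpansion_coeff] using this
  have hcomp : (cuspFunction 1 E₄ ∘ fun τ : ℍ ↦ Function.Periodic.qParam 1 τ) = ⇑E₄ := by
    funext τ
    simpa using eq_cuspFunction τ one_ne_zero hper
  have h := han.continuousAt.tendsto.comp (qParam_tendsto_atImInfty one_pos)
  rw [hcomp, h0] at h
  exact h

/-- The limit at `i∞` of `E₄ ∣[4] P` for `P` upper triangular with positive determinant. -/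
theorem tN_tendsto_slash (P : GL (Fin 2) ℝ) (hP : P 1 0 = 0) (hdet : 0 < P.det.val) :
    Filter.Tendsto (⇑E₄ ∣[(4 : ℤ)] P) atImInfty
      (nhds ((P.det.val : ℂ) ^ 3 * ((P 1 1 : ℝ) : ℂ) ^ (-4 : ℤ))) := by
  have h1 : Filter.Tendsto (fun τ ↦ E₄ (P • τ)) atImInfty (nhds 1) :=
    tN_E4_tendsto.comp (tendsto_smul_atImInfty hP)
  have h2 : ⇑E₄ ∣[(4 : ℤ)] P =
      fun τ ↦ E₄ (P • τ) * ((P.det.val : ℂ) ^ 3 * ((P 1 1 : ℝ) : ℂ) ^ (-4 : ℤ)) := by
    funext τ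
    rw [ModularForm.slash_apply, σ, if_pos hdet]
    simp only [denom, hP, abs_of_pos hdet]
    simp
    ring
  rw [h2]
  simpa using h1.mul_const _

/-- The stabiliser of `t_N` in `SL(2, ℤ)` is contained in `Γ₀(N)`. -/
theorem tN_slash_ne (N : ℕ) [NeZero N] (h : SL(2, ℤ)) (hh : h ∉ Gamma0 N) :
    (⇑(tN_form N)) ∣[(4 : ℤ)] h ≠ ⇑(tN_form N) := by
  intro heq
  apply hh
  rw [Gamma0_mem, ZMod.intCast_zmod_eq_zero_iff_dvd]
  have hN : N ≠ 0 := NeZero.ne N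
  have hdet : h 0 0 * h 1 1 - h 0 1 * h 1 0 = 1 := by
    have := h.det_coe
    rwa [Matrix.det_fin_two] at this
  obtain ⟨c', hc'⟩ : ((Int.gcd (h 1 0) N : ℕ) : ℤ) ∣ h 1 0 := Int.gcd_dvd_left ..
  obtain ⟨N', hN'⟩ : ((Int.gcd (h 1 0) N : ℕ) : ℤ) ∣ (N : ℤ) := Int.gcd_dvd_right ..
  have hbez := Int.gcd_eq_gcd_ab (h 1 0) N
  set g : ℤ := ((Int.gcd (h 1 0) N : ℕ) : ℤ) with hg
  have hg0 : g ≠ 0 := by
    intro h0
    rw [h0, zero_mul] at hN'
    exact hN (by exact_mod_cast hN')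
  have hcop1 : IsCoprime c' N' := by
    refine ⟨Int.gcdA (h 1 0) N, Int.gcdB (h 1 0) N, ?_⟩
    apply mul_left_cancel₀ hg0
    calc g * (Int.gcdA (h 1 0) N * c' + Int.gcdB (h 1 0) N * N')
        = (g * c') * Int.gcdA (h 1 0) N + (g * N') * Int.gcdB (h 1 0) N := by ring
      _ = g * 1 := by rw [← hc', ← hN', ← hbez, mul_one]
  have hcop2 : IsCoprime c' (h 0 0) := by
    refine ⟨-(h 0 1) * g, h 1 1, ?_⟩
    linear_combination hdet + (h 0 1) * hc'
  have hcop : IsCoprime (-c') (N' * h 0 0) := (hcop1.mul_right hcop2).neg_left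
  obtain ⟨γ, hγ0, hγ1⟩ := hcop.exists_SL2_row 1
  set P : GL (Fin 2) ℝ := (γ : GL (Fin 2) ℝ) * heckeDiagMatrix N * (h : GL (Fin 2) ℝ) with hPdef
  have hNr : (N : ℝ) = (g : ℝ) * (N' : ℝ) := by exact_mod_cast hN'
  have hcr : ((h 1 0 : ℤ) : ℝ) = (g : ℝ) * (c' : ℝ) := by exact_mod_cast hc'
  have hdetr : ((h 0 0 : ℤ) : ℝ) * ((h 1 1 : ℤ) : ℝ) -
      ((h 0 1 : ℤ) : ℝ) * ((h 1 0 : ℤ) : ℝ) = 1 := by
    exact_mod_cast hdet
  have hP10 : P 1 0 = 0 := by
    simp only [hPdef, Matrix.GeneralLinearGroup.coe_mul, val_heckeDiagMatrix hN, Matrix.mul_apply,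
      Fin.sum_univ_two]
    simp [hγ0, hγ1, hcr, hNr]
    ring
  have hP11 : P 1 1 = (N' : ℝ) := by
    simp only [hPdef, Matrix.GeneralLinearGroup.coe_mul, val_heckeDiagMatrix hN, Matrix.mul_apply,
      Fin.sum_univ_two]
    simp [hγ0, hγ1, hNr]
    rw [hcr] at hdetr
    linear_combination (N' : ℝ) * hdetr
  have hPdet : P.det.val = (N : ℝ) := by
    simp [hPdef, det_heckeDiagMatrix hN]
  have hslash : ⇑E₄ ∣[(4 : ℤ)] P = ⇑E₄ ∣[(4 : ℤ)] heckeDiagMatrix N := by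
    rw [hPdef, SlashAction.slash_mul, SlashAction.slash_mul]
    have hγ : ⇑E₄ ∣[(4 : ℤ)] (γ : GL (Fin 2) ℝ) = ⇑E₄ :=
      SlashInvariantForm.slash_action_eqn E₄ _ ⟨γ, rfl⟩
    rw [hγ]
    exact heq
  have l1 := tN_tendsto_slash P hP10 (by rw [hPdet]; positivity)
  have l2 := tN_tendsto_slash (heckeDiagMatrix N)
    (P2MW.S_UpperHalfPlane_qCoeff_heckeT.M4cP1W2.heckeDiagMatrix_one_zero N)
    (det_heckeDiagMatrix_pos N)
  rw [hslash] at l1
  have hlim := tendsto_nhds_unique l1 l2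
  rw [hPdet, hP11, det_heckeDiagMatrix hN] at hlim
  have hNc : ((N : ℝ) : ℂ) ^ 3 ≠ 0 := by
    apply pow_ne_zero
    exact_mod_cast hN
  have h11 : (heckeDiagMatrix N : GL (Fin 2) ℝ) 1 1 = 1 := by
    rw [val_heckeDiagMatrix hN]; rfl
  rw [h11] at hlim
  have h4 : (N' : ℂ) ^ 4 = 1 := by
    have h5 := mul_left_cancel₀ hNc hlim
    rw [Complex.ofReal_one, one_zpow, zpow_neg, inv_eq_one] at h5
    exact_mod_cast h5
  have h4' : N' ^ 4 = 1 := by exact_mod_cast h4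
  have h2 : N' ^ 2 = 1 := by
    have : (N' ^ 2) ^ 2 = 1 := by rw [← pow_mul]; exact h4'
    exact (pow_eq_one_iff_of_nonneg (sq_nonneg N') two_ne_zero).mp this
  refine ⟨N' * c', ?_⟩
  rw [hN', hc']
  linear_combination (-g * c') * h2

/-- **Piece (E)**: a weight `4` modular form of level `Γ₀(N)` with integral `q`-expansion whose
`SL(2, ℤ)`-stabiliser is exactly `Γ₀(N)`. -/
theorem exists_tN (N : ℕ) [NeZero N] : ∃ t : ModularForm (Gamma0 N) 4, IsIntPS (qExpansion 1 t) ∧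
  ∀ h : SL(2, ℤ), h ∉ Gamma0 N → (⇑t) ∣[(4 : ℤ)] h ≠ ⇑t :=
  ⟨tN_form N, tN_isIntPS N, tN_slash_ne N⟩

end Fermat.Agent.S23
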