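import Fermat.Agent.S23.Defs

/-!
# S23, piece (D): level-one modular forms are spanned by forms with integral `q`-expansion
-/

set_option autoImplicit false

namespace Fermat.Agent.S23

open UpperHalfPlane ModularForm CongruenceSubgroup
open scoped MatrixGroups

/-- `IsIntPS p` iff `p` is the image of an integral power series. -/
theorem lo_isIntPS_iff (p : PowerSeries ℂ) :
    IsIntPS p ↔ ∃ P : PowerSeries ℤ, P.map (Int.castRingHom ℂ) = p := by
  constructor
  · intro h
    choose m hm using h
    refine ⟨PowerSeries.mk m, ?_⟩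
    ext n
    simp [hm n]
  · rintro ⟨P, rfl⟩ n
    exact ⟨P.coeff n, by simp⟩

theorem lo_isIntPS_mul {p q : PowerSeries ℂ} (hp : IsIntPS p) (hq : IsIntPS q) :
    IsIntPS (p * q) := by
  rw [lo_isIntPS_iff] at *
  obtain ⟨P, rfl⟩ := hp
  obtain ⟨Q, rfl⟩ := hq
  exact ⟨P * Q, by simp⟩

theorem lo_isIntPS_sub {p q : PowerSeries ℂ} (hp : IsIntPS p) (hq : IsIntPS q) :
    IsIntPS (p - q) := by
  rw [lo_isIntPS_iff] at *
  obtain ⟨P, rfl⟩ := hp
  obtain ⟨Q, rfl⟩ := hq
  exact ⟨P - Q, by simp⟩

theorem lo_isIntPS_pow {p : PowerSeries ℂ} (hp : IsIntPS p) (n : ℕ) : IsIntPS (p ^ n) := by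
  rw [lo_isIntPS_iff] at *
  obtain ⟨P, rfl⟩ := hp
  exact ⟨P ^ n, by simp⟩

theorem lo_isIntPS_one : IsIntPS (1 : PowerSeries ℂ) := by
  rw [lo_isIntPS_iff]
  exact ⟨1, by simp⟩

/-- A modular form with integral `q`-expansion is in `ISF`. -/
theorem lo_isf_of_isIntPS {Γ : Subgroup (GL (Fin 2) ℝ)} {k : ℤ} (f : ModularForm Γ k)
    (h : IsIntPS (qExpansion 1 f)) : ISF Γ k ⇑f :=
  Submodule.subset_span ⟨f, rfl, h⟩

theorem lo_isIntPS_E4 : IsIntPS (qExpansion 1 E₄) := by
  intro m
  rw [EisensteinSeries.E_qExpansion_coeff _ ⟨2, rfl⟩]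
  split_ifs with h
  · exact ⟨1, by simp⟩
  · refine ⟨240 * (ArithmeticFunction.sigma 3 m : ℤ), ?_⟩
    norm_num [show bernoulli 4 = -1 / 30 by decide +kernel]

theorem lo_isIntPS_E6 : IsIntPS (qExpansion 1 E₆) := by
  intro m
  rw [EisensteinSeries.E_qExpansion_coeff _ ⟨3, rfl⟩]
  split_ifs with h
  · exact ⟨1, by simp⟩
  · refine ⟨-504 * (ArithmeticFunction.sigma 5 m : ℤ), ?_⟩
    norm_num [show bernoulli 6 = 1 / 42 by decide +kernel]

/-- The form `E₄³ - E₆²` of weight `12`. -/
noncomputable def loD12 : ModularForm 𝒮ℒ 12 :=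
  ModularForm.mcast (by decide) (E₄.pow 3) - ModularForm.mcast (by decide) (E₆.pow 2)

theorem loD12_apply (z : ℍ) : loD12 z = 1728 * ModularForm.discriminant z := by
  have h := ModularForm.discriminant_eq_E₄_cube_sub_E₆_sq z
  have h2 : loD12 z = E₄ z ^ 3 - E₆ z ^ 2 := by
    simp only [loD12, coe_mcast, coe_pow, sub_apply, Pi.pow_apply]
  rw [h2, h]
  ring

theorem loD12_qExpansion : qExpansion 1 loD12 = qExpansion 1 E₄ ^ 3 - qExpansion 1 E₆ ^ 2 := by
  simp only [loD12, FunLike.coe_sub, coe_mcast]
  rw [ModularForm.qExpansion_sub one_pos one_mem_strictPeriods_SL,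
    ModularForm.qExpansion_pow one_pos one_mem_strictPeriods_SL,
    ModularForm.qExpansion_pow one_pos one_mem_strictPeriods_SL]

theorem lo_isIntPS_D12 : IsIntPS (qExpansion 1 loD12) := by
  rw [loD12_qExpansion]
  exact lo_isIntPS_sub (lo_isIntPS_pow lo_isIntPS_E4 3) (lo_isIntPS_pow lo_isIntPS_E6 2)

/-- Multiplication by the discriminant maps `ISF` of weight `k - 12` to `ISF` of weight `k`. -/
theorem lo_isf_discriminant_mul (k : ℤ) (H : ℍ → ℂ) (hH : ISF 𝒮ℒ (k - 12) H) :
    ISF 𝒮ℒ k (fun z => ModularForm.discriminant z * H z) := by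
  unfold ISF at hH ⊢
  induction hH using Submodule.span_induction with
  | mem x hx =>
    obtain ⟨h₁, rfl, hint⟩ := hx
    let F : ModularForm 𝒮ℒ k := ModularForm.mcast (by ring) (loD12.mul h₁)
    have hF : IsIntPS (qExpansion 1 F) := by
      have : qExpansion 1 F = qExpansion 1 loD12 * qExpansion 1 h₁ := by
        simp only [F, ModularForm.qExpansion_mcast]
        exact ModularForm.qExpansion_mul one_pos one_mem_strictPeriods_SL _ _
      rw [this]
      exact lo_isIntPS_mul lo_isIntPS_D12 hint
    have hFmem : (⇑F : ℍ → ℂ) ∈ Submodule.span ℂ (isfGen 𝒮ℒ k) :=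
      lo_isf_of_isIntPS F hF
    have heq : (fun z => ModularForm.discriminant z * h₁ z) = (1728 : ℂ)⁻¹ • (⇑F : ℍ → ℂ) := by
      funext z
      simp only [F, coe_mcast, coe_mul, Pi.smul_apply, Pi.mul_apply, smul_eq_mul, loD12_apply]
      field_simp
    rw [heq]
    exact Submodule.smul_mem _ _ hFmem
  | zero =>
    have : (fun z => ModularForm.discriminant z * (0 : ℍ → ℂ) z) = 0 := by
      funext z; simp
    rw [this]
    exact Submodule.zero_mem _
  | add x y _ _ hx hy =>
    have : (fun z => ModularForm.discriminant z * (x + y) z) =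
        (fun z => ModularForm.discriminant z * x z) + (fun z => ModularForm.discriminant z * y z) := by
      funext z; simp [mul_add]
    rw [this]
    exact Submodule.add_mem _ hx hy
  | smul c x _ hx =>
    have : (fun z => ModularForm.discriminant z * (c • x) z) =
        c • (fun z => ModularForm.discriminant z * x z) := by
      funext z; simp; ring
    rw [this]
    exact Submodule.smul_mem _ _ hx

/-- The Eisenstein series `E_n` is in `ISF`. -/
theorem lo_isf_E (n : ℕ) (hn : 3 ≤ n) (he : Even n) : ISF 𝒮ℒ n ⇑(E hn) := by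
  by_cases hB : bernoulli n = 0
  · refine lo_isf_of_isIntPS (E hn) ?_
    intro m
    rw [EisensteinSeries.E_qExpansion_coeff hn he]
    split_ifs with h
    · exact ⟨1, by simp⟩
    · exact ⟨0, by simp [hB]⟩
  · set B : ℚ := bernoulli n with hBdef
    have hnum : (B.num : ℂ) ≠ 0 := by
      exact_mod_cast Rat.num_ne_zero.mpr hB
    let F : ModularForm 𝒮ℒ n := (B.num : ℂ) • E hn
    have hF : IsIntPS (qExpansion 1 F) := by
      have : qExpansion 1 F = (B.num : ℂ) • qExpansion 1 (E hn) := by
        simp only [F, FunLike.coe_smul]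
        exact ModularForm.qExpansion_smul one_pos one_mem_strictPeriods_SL _ (E hn)
      intro m
      rw [this, PowerSeries.coeff_smul, EisensteinSeries.E_qExpansion_coeff hn he]
      split_ifs with h
      · exact ⟨B.num, by simp⟩
      · refine ⟨-(2 * n * B.den * (ArithmeticFunction.sigma (n - 1) m : ℤ)), ?_⟩
        have hBc : ((bernoulli n : ℚ) : ℂ) = (B.num : ℂ) / (B.den : ℂ) := by
          rw [← hBdef]
          exact Rat.cast_def B
        have hden : (B.den : ℂ) ≠ 0 := by
          exact_mod_cast B.den_ne_zero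
        rw [hBc, smul_eq_mul]
        push_cast
        field_simp
    have heq : (⇑(E hn) : ℍ → ℂ) = (B.num : ℂ)⁻¹ • (⇑F : ℍ → ℂ) := by
      funext z
      simp only [F, FunLike.coe_smul, Pi.smul_apply, smul_eq_mul]
      field_simp
    unfold ISF
    rw [heq]
    exact Submodule.smul_mem _ _ (lo_isf_of_isIntPS F hF)

theorem lo_isf_levelOne_aux (m : ℕ) :
    ∀ k : ℤ, k ≤ m → ∀ f : ModularForm 𝒮ℒ k, ISF 𝒮ℒ k ⇑f := by
  induction m using Nat.strong_induction_on with
  | _ m ih =>
  intro k hkm f
  rcases lt_trichotomy k 0 with hk | rfl | hk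
  · have h0 : (⇑f : ℍ → ℂ) = 0 := ModularFormClass.levelOne_neg_weight_eq_zero hk f
    unfold ISF
    rw [h0]
    exact Submodule.zero_mem _
  · obtain ⟨c, hc⟩ := ModularFormClass.levelOne_weight_zero_const f
    have h1 : ISF 𝒮ℒ 0 ⇑(1 : ModularForm 𝒮ℒ 0) := by
      refine lo_isf_of_isIntPS _ ?_
      rw [ModularForm.qExpansion_one]
      exact lo_isIntPS_one
    have heq : (⇑f : ℍ → ℂ) = c • (⇑(1 : ModularForm 𝒮ℒ 0) : ℍ → ℂ) := by
      rw [hc]
      funext z
      simp
    unfold ISF at h1 ⊢
    rw [heq]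
    exact Submodule.smul_mem _ _ h1
  · rcases Int.even_or_odd k with he | ho
    · by_cases h2 : k = 2
      · subst h2
        have hf0 : f = 0 :=
          rank_zero_iff_forall_zero.mp ModularForm.levelOne_weight_two_rank_zero f
        unfold ISF
        rw [hf0]
        simp
      · lift k to ℕ using hk.le
        have he' : Even k := by exact_mod_cast he
        have hk4 : 4 ≤ k := by
          obtain ⟨r, hr⟩ := he'
          have : k ≠ 2 := by
            intro h; apply h2; simp [h]
          have hk0 : 0 < k := by exact_mod_cast hk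
          omega
        have hk3 : 3 ≤ k := by omega
        set a₀ : ℂ := (qExpansion 1 f).coeff 0 with ha₀
        let g : ModularForm 𝒮ℒ k := f - a₀ • E hk3
        have hg0 : (qExpansion 1 g).coeff 0 = 0 := by
          simp only [g]
          rw [FunLike.coe_sub, ModularForm.qExpansion_sub one_pos
            one_mem_strictPeriods_SL, FunLike.coe_smul,
            ModularForm.qExpansion_smul one_pos one_mem_strictPeriods_SL,
            map_sub, PowerSeries.coeff_smul, EisensteinSeries.E_qExpansion_coeff_zero hk3 he',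
            smul_eq_mul, mul_one, sub_self]
        set h := CuspForm.discriminantEquiv (ModularForm.toCuspForm g hg0) with hh
        have hih : ISF 𝒮ℒ ((k : ℤ) - 12) ⇑h := by
          have hm : 4 ≤ m := by exact_mod_cast (show (4 : ℤ) ≤ m by omega)
          exact ih (m - 1) (by omega) ((k : ℤ) - 12) (by omega) h
        have hΔ := lo_isf_discriminant_mul (k : ℤ) ⇑h hih
        have hE := lo_isf_E k hk3 he'
        have heq : (⇑f : ℍ → ℂ) =
            a₀ • (⇑(E hk3) : ℍ → ℂ) + (fun z => ModularForm.discriminant z * h z) := by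
          funext z
          have hz := ModularForm.discriminant_mul_discriminantEquiv_apply
            (ModularForm.toCuspForm g hg0) z
          simp only [Pi.add_apply, Pi.smul_apply, smul_eq_mul]
          rw [← hh] at hz
          rw [hz, ModularForm.toCuspForm_apply]
          simp [g]
        unfold ISF at hΔ hE ⊢
        rw [heq]
        exact Submodule.add_mem _ (Submodule.smul_mem _ _ hE) hΔ
    · have hf0 : f = 0 := ModularForm.levelOne_odd_weight_eq_zero ho f
      unfold ISF
      rw [hf0]
      simp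

/-- Every level-one modular form is a `ℂ`-linear combination of level-one modular forms with
integral `q`-expansion. -/
theorem isf_levelOne (k : ℤ) (f : ModularForm 𝒮ℒ k) : ISF 𝒮ℒ k ⇑f :=
  lo_isf_levelOne_aux k.toNat k (Int.self_le_toNat k) f

end Fermat.Agent.S23
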