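import Fermat.Agent.S23.Defs
import Fermat.Agent.S23.QNice
import Fermat.Agent.S23.LevelOne
import Fermat.Agent.S23.TN

/-!
# S23: API for `ISF` (ℂ-spans of modular forms with integral `q`-expansions)
-/

set_option autoImplicit false

namespace Fermat.Agent.S23

open UpperHalfPlane ModularForm CongruenceSubgroup
open scoped MatrixGroups

section ISF

variable {Γ : Subgroup (GL (Fin 2) ℝ)} {k : ℤ} {F G : ℍ → ℂ}

theorem ISF.exists_modularForm [Γ.HasDetOne] (h : ISF Γ k F) :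
    ∃ f : ModularForm Γ k, ⇑f = F := by
  unfold ISF at h
  induction h using Submodule.span_induction with
  | mem x hx =>
    obtain ⟨f, hf, -⟩ := hx
    exact ⟨f, hf⟩
  | zero => exact ⟨0, rfl⟩
  | add x y _ _ hx hy =>
    obtain ⟨f, rfl⟩ := hx
    obtain ⟨g, rfl⟩ := hy
    exact ⟨f + g, rfl⟩
  | smul a x _ hx =>
    obtain ⟨f, rfl⟩ := hx
    exact ⟨a • f, rfl⟩

/-- Elements of `ISF` are nice (period one, holomorphic, bounded at `i∞`). -/
theorem ISF.qnice (hΓ : (1 : ℝ) ∈ Γ.strictPeriods) (h : ISF Γ k F) : QNice F := by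
  unfold ISF at h
  induction h using Submodule.span_induction with
  | mem x hx =>
    obtain ⟨f, rfl, -⟩ := hx
    exact qnice_of_modularForm hΓ f
  | zero => exact QNice.zero
  | add x y _ _ hx hy => exact hx.add hy
  | smul a x _ hx => exact hx.smul a

theorem ISF.of_modularForm (f : ModularForm Γ k) (hf : IsIntPS (qExpansion 1 f)) :
    ISF Γ k ⇑f :=
  Submodule.subset_span ⟨f, rfl, hf⟩

theorem ISF.zero : ISF Γ k 0 :=
  Submodule.zero_mem _

theorem ISF.add (hF : ISF Γ k F) (hG : ISF Γ k G) : ISF Γ k (F + G) :=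
  Submodule.add_mem _ hF hG

theorem ISF.smul (a : ℂ) (hF : ISF Γ k F) : ISF Γ k (a • F) :=
  Submodule.smul_mem _ a hF

theorem ISF.neg (hF : ISF Γ k F) : ISF Γ k (-F) :=
  Submodule.neg_mem _ hF

theorem ISF.sub (hF : ISF Γ k F) (hG : ISF Γ k G) : ISF Γ k (F - G) :=
  Submodule.sub_mem _ hF hG

theorem ISF.sum {ι : Type*} (s : Finset ι) {f : ι → ℍ → ℂ} (h : ∀ i ∈ s, ISF Γ k (f i)) :
    ISF Γ k (∑ i ∈ s, f i) :=
  Submodule.sum_mem _ h

theorem ISF.congr_weight {k' : ℤ} (hk : k = k') (hF : ISF Γ k F) : ISF Γ k' F := hk ▸ hF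

theorem ISF.one [Γ.HasDetPlusMinusOne] : ISF Γ 0 (1 : ℍ → ℂ) := by
  refine Submodule.subset_span ⟨1, one_coe_eq_one, ?_⟩
  rw [UpperHalfPlane.qExpansion_one]
  exact lo_isIntPS_one

theorem ISF.mul [Γ.HasDetPlusMinusOne] (hΓ : (1 : ℝ) ∈ Γ.strictPeriods) {k₁ k₂ : ℤ}
    (hF : ISF Γ k₁ F) (hG : ISF Γ k₂ G) : ISF Γ (k₁ + k₂) (F * G) := by
  unfold ISF at hF hG ⊢
  induction hF using Submodule.span_induction with
  | mem x hx =>
    induction hG using Submodule.span_induction with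
    | mem y hy =>
      obtain ⟨f, rfl, hf⟩ := hx
      obtain ⟨g, rfl, hg⟩ := hy
      refine Submodule.subset_span ⟨f.mul g, rfl, ?_⟩
      rw [(qnice_of_modularForm hΓ f).qExpansion_mul (qnice_of_modularForm hΓ g)]
      exact lo_isIntPS_mul hf hg
    | zero =>
      rw [mul_zero]
      exact Submodule.zero_mem _
    | add y z _ _ hy hz =>
      rw [mul_add]
      exact Submodule.add_mem _ hy hz
    | smul a y _ hy =>
      rw [mul_smul_comm]
      exact Submodule.smul_mem _ a hy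
  | zero =>
    rw [zero_mul]
    exact Submodule.zero_mem _
  | add x y _ _ hx hy =>
    rw [add_mul]
    exact Submodule.add_mem _ hx hy
  | smul a x _ hx =>
    rw [smul_mul_assoc]
    exact Submodule.smul_mem _ a hx

theorem ISF.pow [Γ.HasDetPlusMinusOne] (hΓ : (1 : ℝ) ∈ Γ.strictPeriods)
    (hF : ISF Γ k F) (n : ℕ) : ISF Γ (n * k) (F ^ n) := by
  induction n with
  | zero =>
    rw [pow_zero]
    exact ISF.one.congr_weight (by simp)
  | succ n ih =>
    rw [pow_succ]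
    exact (ih.mul hΓ hF).congr_weight (by push_cast; ring)

/-- A ring endomorphism of `ℂ` fixes power series with integer coefficients. -/
theorem isIntPS_map_eq (σ : ℂ →+* ℂ) {p : PowerSeries ℂ} (hp : IsIntPS p) : p.map σ = p := by
  ext n
  obtain ⟨m, hm⟩ := hp n
  rw [PowerSeries.coeff_map, hm, map_intCast]

/-- Conjugating the `q`-expansion coefficients by a ring endomorphism of `ℂ`. -/
theorem ISF.exists_conj (hΓ : (1 : ℝ) ∈ Γ.strictPeriods) (h : ISF Γ k F) (σ : ℂ →+* ℂ) :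
    ∃ F' : ℍ → ℂ, ISF Γ k F' ∧ qExpansion 1 F' = (qExpansion 1 F).map σ := by
  unfold ISF at h
  induction h using Submodule.span_induction with
  | mem x hx =>
    obtain ⟨f, rfl, hf⟩ := hx
    exact ⟨f, Submodule.subset_span ⟨f, rfl, hf⟩, (isIntPS_map_eq σ hf).symm⟩
  | zero =>
    refine ⟨0, ISF.zero, ?_⟩
    rw [UpperHalfPlane.qExpansion_zero, map_zero]
  | add x y hx hy ihx ihy =>
    obtain ⟨x', hx', hqx⟩ := ihx
    obtain ⟨y', hy', hqy⟩ := ihy
    refine ⟨x' + y', hx'.add hy', ?_⟩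
    rw [(hx'.qnice hΓ).qExpansion_add (hy'.qnice hΓ),
      (ISF.qnice hΓ hx).qExpansion_add (ISF.qnice hΓ hy), map_add, hqx, hqy]
  | smul a x hx ihx =>
    obtain ⟨x', hx', hqx⟩ := ihx
    refine ⟨σ a • x', hx'.smul _, ?_⟩
    rw [(hx'.qnice hΓ).qExpansion_smul, (ISF.qnice hΓ hx).qExpansion_smul, hqx]
    ext n
    simp [PowerSeries.coeff_map]

/-- Auxiliary statement for `ISF.exists_proj` (with an extra scalar `y`, to make the span
induction go through). -/
theorem ISF.exists_proj_aux (hΓ : (1 : ℝ) ∈ Γ.strictPeriods) (h : ISF Γ k F) (π : ℂ →ₗ[ℚ] ℚ) :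
    ∀ y : ℂ, ∃ D : ℤ, D ≠ 0 ∧ ∃ p : PowerSeries ℤ,
      ∀ n, (D : ℚ) * π (y * (qExpansion 1 F).coeff n) = (p.coeff n : ℤ) := by
  unfold ISF at h
  induction h using Submodule.span_induction with
  | mem x hx =>
    obtain ⟨f, rfl, hf⟩ := hx
    intro y
    choose a ha using hf
    refine ⟨((π y).den : ℤ), by exact_mod_cast (π y).den_nz,
      PowerSeries.mk fun n => a n * (π y).num, fun n => ?_⟩
    rw [ha n, PowerSeries.coeff_mk]
    have h1 : y * (a n : ℂ) = (a n : ℚ) • y := by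
      rw [Rat.smul_def, mul_comm]
      push_cast
      rfl
    rw [h1, map_smul, smul_eq_mul]
    have h2 : ((π y).den : ℚ) * π y = (π y).num := Rat.den_mul_eq_num (π y)
    push_cast
    linear_combination (a n : ℚ) * h2
  | zero =>
    intro y
    refine ⟨1, one_ne_zero, 0, fun n => ?_⟩
    rw [UpperHalfPlane.qExpansion_zero]
    simp
  | add x z hx hz ihx ihz =>
    intro y
    obtain ⟨D1, hD1, p1, hp1⟩ := ihx y
    obtain ⟨D2, hD2, p2, hp2⟩ := ihz y
    refine ⟨D1 * D2, mul_ne_zero hD1 hD2, PowerSeries.C D2 * p1 + PowerSeries.C D1 * p2,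
      fun n => ?_⟩
    rw [(ISF.qnice hΓ hx).qExpansion_add (ISF.qnice hΓ hz), map_add, mul_add, map_add, mul_add]
    simp only [map_add, PowerSeries.coeff_C_mul]
    push_cast
    linear_combination (D2 : ℚ) * hp1 n + (D1 : ℚ) * hp2 n
  | smul a x hx ihx =>
    intro y
    obtain ⟨D, hD, p, hp⟩ := ihx (y * a)
    refine ⟨D, hD, p, fun n => ?_⟩
    rw [(ISF.qnice hΓ hx).qExpansion_smul, ← hp n]
    simp [mul_assoc]

/-- Applying a `ℚ`-linear functional coefficientwise gives a series with bounded denominators. -/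
theorem ISF.exists_proj (hΓ : (1 : ℝ) ∈ Γ.strictPeriods) (h : ISF Γ k F) (π : ℂ →ₗ[ℚ] ℚ) :
    ∃ D : ℤ, D ≠ 0 ∧ ∃ p : PowerSeries ℤ,
      ∀ n, (D : ℚ) * π ((qExpansion 1 F).coeff n) = (p.coeff n : ℤ) := by
  obtain ⟨D, hD, p, hp⟩ := ISF.exists_proj_aux hΓ h π 1
  refine ⟨D, hD, p, fun n => ?_⟩
  rw [← hp n, one_mul]

/-- Level one forms are forms of level `Γ₀(N)`. -/
theorem ISF.of_levelOne (N : ℕ) (h : ISF 𝒮ℒ k F) : ISF (Gamma0 N) k F := by
  unfold ISF at h ⊢
  refine Submodule.span_mono ?_ h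
  rintro G ⟨f, rfl, hf⟩
  exact ⟨tN_restrict (Subgroup.map_le_range _ _) f, rfl, hf⟩

end ISF

end Fermat.Agent.S23
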