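import Fermat.Agent.S23.Defs

/-!
# S23, piece (G): the Lagrange interpolation identity and the monic identity, expressed through
elementary symmetric polynomials.
-/

set_option autoImplicit false

namespace Fermat.Agent.S23

open UpperHalfPlane ModularForm CongruenceSubgroup
open scoped MatrixGroups

/-- Horner recursion for the partial evaluations. -/
theorem lagrange_horner_succ {R : Type*} [CommRing R] (c : ℕ → R) (s : R) (n : ℕ) :
    ∑ j ∈ Finset.range (n + 2), c j * s ^ (n + 1 - j) =
      s * (∑ j ∈ Finset.range (n + 1), c j * s ^ (n - j)) + c (n + 1) := by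
  rw [Finset.sum_range_succ, Finset.mul_sum]
  congr 1
  · refine Finset.sum_congr rfl fun j hj => ?_
    have hj' : j ≤ n := Nat.lt_succ_iff.mp (Finset.mem_range.mp hj)
    have : n + 1 - j = (n - j) + 1 := by omega
    rw [this, pow_succ]
    ring
  · simp

/-- Synthetic division: `(X - s) * (quotient) = p(X) - p(s)`. -/
theorem lagrange_synthetic_division {R : Type*} [CommRing R] (c : ℕ → R) (s : R) (n : ℕ) :
    (Polynomial.X - Polynomial.C s) *
        ∑ m ∈ Finset.range n, Polynomial.X ^ (n - 1 - m) *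
          Polynomial.C (∑ j ∈ Finset.range (m + 1), c j * s ^ (m - j)) =
      ∑ j ∈ Finset.range (n + 1), Polynomial.C (c j) * Polynomial.X ^ (n - j) -
        Polynomial.C (∑ j ∈ Finset.range (n + 1), c j * s ^ (n - j)) := by
  induction n with
  | zero => simp
  | succ n ih =>
    have h1 : ∑ m ∈ Finset.range (n + 1), (Polynomial.X : Polynomial R) ^ (n + 1 - 1 - m) *
          Polynomial.C (∑ j ∈ Finset.range (m + 1), c j * s ^ (m - j)) =
        Polynomial.X * ∑ m ∈ Finset.range n, (Polynomial.X : Polynomial R) ^ (n - 1 - m) *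
          Polynomial.C (∑ j ∈ Finset.range (m + 1), c j * s ^ (m - j)) +
          Polynomial.C (∑ j ∈ Finset.range (n + 1), c j * s ^ (n - j)) := by
      rw [Finset.sum_range_succ, Finset.mul_sum]
      congr 1
      · refine Finset.sum_congr rfl fun m hm => ?_
        have hm' : m < n := Finset.mem_range.mp hm
        have : n + 1 - 1 - m = (n - 1 - m) + 1 := by omega
        rw [this, pow_succ]
        ring
      · simp
    have h2 : ∑ j ∈ Finset.range (n + 1 + 1), Polynomial.C (c j) *
          (Polynomial.X : Polynomial R) ^ (n + 1 - j) =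
        Polynomial.X * ∑ j ∈ Finset.range (n + 1), Polynomial.C (c j) *
          (Polynomial.X : Polynomial R) ^ (n - j) + Polynomial.C (c (n + 1)) := by
      rw [Finset.sum_range_succ, Finset.mul_sum]
      congr 1
      · refine Finset.sum_congr rfl fun j hj => ?_
        have hj' : j ≤ n := Nat.lt_succ_iff.mp (Finset.mem_range.mp hj)
        have : n + 1 - j = (n - j) + 1 := by omega
        rw [this, pow_succ]
        ring
      · simp
    rw [h1, h2, lagrange_horner_succ, mul_add, ← mul_assoc, mul_comm _ Polynomial.X, mul_assoc,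
      ih, Polynomial.C_add, Polynomial.C_mul]
    ring

/-- The product `∏ (X - x q)` expanded via elementary symmetric polynomials. -/
theorem lagrange_prod_eq_sum {Q : Type*} [Fintype Q] (x : Q → ℂ) :
    ∏ q, (Polynomial.X - Polynomial.C (x q)) =
      ∑ j ∈ Finset.range (Fintype.card Q + 1),
        Polynomial.C ((-1) ^ j * MvPolynomial.eval x (MvPolynomial.esymm Q ℂ j)) *
          Polynomial.X ^ (Fintype.card Q - j) := by
  have h : (∏ q, (Polynomial.X - Polynomial.C (x q))) =
      ((Finset.univ.val.map x).map fun t => Polynomial.X - Polynomial.C t).prod := by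
    rw [Multiset.map_map]
    rfl
  have hcard : Multiset.card (Finset.univ.val.map x) = Fintype.card Q := by
    rw [Multiset.card_map]
    rfl
  rw [h, Multiset.prod_X_sub_X_eq_sum_esymm, hcard]
  refine Finset.sum_congr rfl fun j _ => ?_
  have h2 : MvPolynomial.eval x (MvPolynomial.esymm Q ℂ j) = (Finset.univ.val.map x).esymm j := by
    rw [← MvPolynomial.aeval_esymm_eq_multiset_esymm Q ℂ j x]
    rfl
  rw [h2, Polynomial.C_mul, Polynomial.C_pow, Polynomial.C_neg, Polynomial.C_1]
  ring

/-- The quotient of `∏ (X - x q)` by `X - x q₁` expanded by synthetic division. -/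
theorem lagrange_quotient {Q : Type*} [Fintype Q] [DecidableEq Q] (x : Q → ℂ) (q₁ : Q) :
    ∏ q ∈ Finset.univ.erase q₁, (Polynomial.X - Polynomial.C (x q)) =
      ∑ m ∈ Finset.range (Fintype.card Q), Polynomial.X ^ (Fintype.card Q - 1 - m) *
        Polynomial.C (∑ j ∈ Finset.range (m + 1),
          ((-1) ^ j * MvPolynomial.eval x (MvPolynomial.esymm Q ℂ j)) * x q₁ ^ (m - j)) := by
  have hne : (Polynomial.X - Polynomial.C (x q₁) : Polynomial ℂ) ≠ 0 :=
    Polynomial.X_sub_C_ne_zero _
  refine mul_left_cancel₀ hne ?_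
  rw [lagrange_synthetic_division
    (fun j => (-1) ^ j * MvPolynomial.eval x (MvPolynomial.esymm Q ℂ j)) (x q₁) (Fintype.card Q),
    ← lagrange_prod_eq_sum,
    Finset.mul_prod_erase Finset.univ (fun q => Polynomial.X - Polynomial.C (x q))
      (Finset.mem_univ q₁)]
  have h0 : ∑ j ∈ Finset.range (Fintype.card Q + 1),
      (-1) ^ j * MvPolynomial.eval x (MvPolynomial.esymm Q ℂ j) * x q₁ ^ (Fintype.card Q - j) =
      0 := by
    have h1 := congrArg (Polynomial.eval (x q₁)) (lagrange_prod_eq_sum x)
    rw [Polynomial.eval_prod, Finset.prod_eq_zero (Finset.mem_univ q₁) (by simp),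
      Polynomial.eval_finsetSum] at h1
    rw [h1]
    refine Finset.sum_congr rfl fun j _ => ?_
    simp
  rw [h0, Polynomial.C_0, sub_zero]

/-- **Piece (G), Lagrange identity.** -/
theorem lagrange_identity {Q : Type*} [Fintype Q] [DecidableEq Q] (x y : Q → ℂ) (q₀ : Q) :
    y q₀ * ∏ q ∈ Finset.univ.erase q₀, (x q₀ - x q) =
      ∑ m ∈ Finset.range (Fintype.card Q), ∑ j ∈ Finset.range (m + 1),
        x q₀ ^ (Fintype.card Q - 1 - m) *
          ((-1) ^ j * MvPolynomial.eval x (MvPolynomial.esymm Q ℂ j)) *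
            ∑ q, y q * x q ^ (m - j) := by
  have key : ∀ q₁ : Q, ∏ q ∈ Finset.univ.erase q₁, (x q₀ - x q) =
      ∑ m ∈ Finset.range (Fintype.card Q), x q₀ ^ (Fintype.card Q - 1 - m) *
        (∑ j ∈ Finset.range (m + 1),
          ((-1) ^ j * MvPolynomial.eval x (MvPolynomial.esymm Q ℂ j)) * x q₁ ^ (m - j)) := by
    intro q₁
    have h1 := congrArg (Polynomial.eval (x q₀)) (lagrange_quotient x q₁)
    rw [Polynomial.eval_prod, Polynomial.eval_finsetSum] at h1
    simp only [Polynomial.eval_mul, Polynomial.eval_pow, Polynomial.eval_X, Polynomial.eval_C,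
      Polynomial.eval_sub] at h1
    exact h1
  have h2 : ∑ q, y q * ∏ q' ∈ Finset.univ.erase q, (x q₀ - x q') =
      y q₀ * ∏ q ∈ Finset.univ.erase q₀, (x q₀ - x q) := by
    refine Finset.sum_eq_single q₀ (fun q _ hq => ?_) (fun h => absurd (Finset.mem_univ q₀) h)
    rw [Finset.prod_eq_zero (i := q₀) (Finset.mem_erase.mpr ⟨fun h => hq h.symm, Finset.mem_univ _⟩)
      (sub_self _), mul_zero]
  rw [← h2]
  simp_rw [key, Finset.mul_sum]
  rw [Finset.sum_comm]
  refine Finset.sum_congr rfl fun m _ => ?_
  rw [Finset.sum_comm]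
  refine Finset.sum_congr rfl fun j _ => ?_
  refine Finset.sum_congr rfl fun q _ => ?_
  ring

/-- **Piece (G), monic identity.** -/
theorem monic_identity {Q : Type*} [Fintype Q] [DecidableEq Q] (x : Q → ℂ) (q₀ : Q) :
    x q₀ ^ Fintype.card Q + ∑ i ∈ Finset.range (Fintype.card Q),
      ((-1) ^ (i + 1) * MvPolynomial.eval x (MvPolynomial.esymm Q ℂ (i + 1))) *
        x q₀ ^ (Fintype.card Q - 1 - i) = 0 := by
  have h1 := congrArg (Polynomial.eval (x q₀)) (lagrange_prod_eq_sum x)
  rw [Polynomial.eval_prod, Finset.prod_eq_zero (Finset.mem_univ q₀) (by simp),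
    Polynomial.eval_finsetSum, Finset.sum_range_succ'] at h1
  rw [h1]
  rw [add_comm]
  congr 1
  · refine Finset.sum_congr rfl fun i _ => ?_
    have : Fintype.card Q - (i + 1) = Fintype.card Q - 1 - i := by omega
    simp [this]
  · simp

end Fermat.Agent.S23
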