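import Fermat.Agent.S23.Esymm
import Fermat.Agent.S23.TN
import Fermat.Agent.S23.LevelOne
import Fermat.Agent.S23.Lagrange
import Fermat.Agent.S23.ISF

/-!
# S23: the two algebraic identities for a cusp form of level `Γ₀(N)`

For `f ∈ S_k(Γ₀(N))` we produce
* forms `C ≠ 0`, `G` of level `Γ₀(N)`, spanned by forms with integral `q`-expansions, such that
  `f * C = G` (Lagrange interpolation along the conjugates of `t_N`);
* a monic equation for `f` whose coefficients are level one cusp forms.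
-/

set_option autoImplicit false

namespace Fermat.Agent.S23

open UpperHalfPlane ModularForm CongruenceSubgroup SlashInvariantForm
open scoped MatrixGroups Manifold

/-- Elementary symmetric polynomials are homogeneous. -/
theorem alg_esymm_isHomogeneous (σ : Type*) [Fintype σ] (n : ℕ) :
    (MvPolynomial.esymm σ ℂ n).IsHomogeneous n := by
  classical
  rw [MvPolynomial.esymm]
  refine MvPolynomial.IsHomogeneous.sum _ _ _ fun t ht => ?_
  have := MvPolynomial.IsHomogeneous.prod t (fun i => (MvPolynomial.X i : MvPolynomial σ ℂ))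
    (fun _ => 1) (fun i _ => MvPolynomial.isHomogeneous_X ℂ i)
  simpa [(Finset.mem_powersetCard.mp ht).2] using this

/-- Slash of a power by an element of `SL(2, ℤ)`. -/
theorem alg_pow_slash_SL (k : ℤ) (γ : SL(2, ℤ)) (f : ℍ → ℂ) (n : ℕ) :
    (f ^ n) ∣[(n : ℤ) * k] γ = (f ∣[k] γ) ^ n := by
  induction n with
  | zero =>
    simp only [pow_zero, Nat.cast_zero, zero_mul]
    exact is_invariant_one γ
  | succ n ih =>
    rw [pow_succ, pow_succ, ← ih, ← mul_slash_SL2]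
    congr 1
    push_cast
    ring

section Conjugates

variable {𝒢 : Subgroup (GL (Fin 2) ℝ)}

local notation "𝒬" => 𝒮ℒ ⧸ (𝒢.subgroupOf 𝒮ℒ)

/-- The conjugates of `f₁ * f₂ ^ n`. -/
theorem alg_quotientFunc_mul_pow {F₁ F₂ F₃ : Type*} [FunLike F₁ ℍ ℂ] [FunLike F₂ ℍ ℂ]
    [FunLike F₃ ℍ ℂ] {k₁ k₂ k₃ : ℤ} [SlashInvariantFormClass F₁ 𝒢 k₁]
    [SlashInvariantFormClass F₂ 𝒢 k₂] [SlashInvariantFormClass F₃ 𝒢 k₃] (f₁ : F₁) (f₂ : F₂)
    (f₃ : F₃) (n : ℕ) (hk : k₃ = k₁ + n * k₂) (h : ⇑f₃ = ⇑f₁ * ⇑f₂ ^ n) (q : 𝒬) :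
    quotientFunc f₃ q = quotientFunc f₁ q * quotientFunc f₂ q ^ n := by
  subst hk
  induction q using Quotient.inductionOn with
  | h r =>
    obtain ⟨r, ⟨γ, rfl⟩⟩ := r
    simp only [quotientFunc_mk]
    show (⇑f₃) ∣[k₁ + n * k₂] (Matrix.SpecialLinearGroup.mapGL ℝ γ)⁻¹ =
      (⇑f₁) ∣[k₁] (Matrix.SpecialLinearGroup.mapGL ℝ γ)⁻¹ *
        ((⇑f₂) ∣[k₂] (Matrix.SpecialLinearGroup.mapGL ℝ γ)⁻¹) ^ n
    rw [← map_inv, h]
    have h1 := mul_slash_SL2 k₁ (n * k₂) γ⁻¹ ⇑f₁ (⇑f₂ ^ n)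
    rw [alg_pow_slash_SL] at h1
    exact h1

/-- The conjugates of `f ^ n`. -/
theorem alg_quotientFunc_pow {F₂ F₃ : Type*} [FunLike F₂ ℍ ℂ]
    [FunLike F₃ ℍ ℂ] {k₂ k₃ : ℤ}
    [SlashInvariantFormClass F₂ 𝒢 k₂] [SlashInvariantFormClass F₃ 𝒢 k₃] (f₂ : F₂)
    (f₃ : F₃) (n : ℕ) (hk : k₃ = n * k₂) (h : ⇑f₃ = ⇑f₂ ^ n) (q : 𝒬) :
    quotientFunc f₃ q = quotientFunc f₂ q ^ n := by
  subst hk
  induction q using Quotient.inductionOn with
  | h r =>
    obtain ⟨r, ⟨γ, rfl⟩⟩ := r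
    simp only [quotientFunc_mk]
    show (⇑f₃) ∣[n * k₂] (Matrix.SpecialLinearGroup.mapGL ℝ γ)⁻¹ =
        ((⇑f₂) ∣[k₂] (Matrix.SpecialLinearGroup.mapGL ℝ γ)⁻¹) ^ n
    rw [← map_inv, h]
    exact alg_pow_slash_SL k₂ γ⁻¹ ⇑f₂ n

/-- The conjugate attached to the trivial coset is the form itself. -/
theorem alg_quotientFunc_one {F : Type*} [FunLike F ℍ ℂ] {k : ℤ} [SlashInvariantFormClass F 𝒢 k]
    (f : F) : quotientFunc f ((QuotientGroup.mk (1 : 𝒮ℒ) : 𝒬)) = ⇑f := by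
  show (⇑f) ∣[k] ((1 : 𝒮ℒ) : GL (Fin 2) ℝ)⁻¹ = ⇑f
  simp [SlashAction.slash_one]

end Conjugates

section Core

variable (N : ℕ) [NeZero N]

set_option quotPrecheck false in
local notation "𝒬" => 𝒮ℒ ⧸ (Subgroup.subgroupOf (Gamma0 N : Subgroup (GL (Fin 2) ℝ)) 𝒮ℒ)

/-- Lagrange interpolation along the conjugates of `t`: the core of the identity `f * C = G`. -/
theorem alg_isf_lagrange [Fintype 𝒬] [DecidableEq 𝒬] (t : ModularForm (Gamma0 N) 4)
    (ht : IsIntPS (qExpansion 1 t)) (k' : ℤ) (Y : 𝒬 → ℍ → ℂ)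
    (hY : ∀ n : ℕ, ISF (Gamma0 N) (k' + n * 4) (fun z => ∑ q, Y q z * quotientFunc t q z ^ n))
    (q₀ : 𝒬) (hq₀ : quotientFunc t q₀ = ⇑t) :
    ISF (Gamma0 N) (((Fintype.card 𝒬 - 1 : ℕ) : ℤ) * 4 + k')
      (fun z => Y q₀ z *
        ∏ q ∈ Finset.univ.erase q₀, (quotientFunc t q₀ z - quotientFunc t q z)) := by
  have hΓ := one_mem_strictPeriods_Gamma0 N
  have key : (fun z => Y q₀ z *
        ∏ q ∈ Finset.univ.erase q₀, (quotientFunc t q₀ z - quotientFunc t q z)) =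
      ∑ m ∈ Finset.range (Fintype.card 𝒬), ∑ j ∈ Finset.range (m + 1),
        (⇑t ^ (Fintype.card 𝒬 - 1 - m) * ((-1 : ℂ) ^ j • (fun z =>
          MvPolynomial.eval (fun q => quotientFunc t q z) (MvPolynomial.esymm 𝒬 ℂ j)))) *
          (fun z => ∑ q, Y q z * quotientFunc t q z ^ (m - j)) := by
    ext z
    rw [lagrange_identity (fun q => quotientFunc t q z) (fun q => Y q z) q₀]
    simp only [Finset.sum_apply, Pi.mul_apply, Pi.pow_apply, Pi.smul_apply, smul_eq_mul, hq₀]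
  rw [key]
  refine ISF.sum _ fun m hm => ISF.sum _ fun j hj => ?_
  have hm' := Finset.mem_range.mp hm
  have hj' := Finset.mem_range.mp hj
  obtain ⟨P, hP⟩ := exists_modularForm_eval_symm t (MvPolynomial.esymm 𝒬 ℂ j) j
    (MvPolynomial.esymm_isSymmetric _ _ _) (alg_esymm_isHomogeneous _ _)
  have hPfun : (fun z => MvPolynomial.eval (fun q => quotientFunc t q z)
      (MvPolynomial.esymm 𝒬 ℂ j)) = ⇑P := by
    ext z
    exact (hP z).symm
  have h1 : ISF (Gamma0 N) (((Fintype.card 𝒬 - 1 - m : ℕ) : ℤ) * 4)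
      (⇑t ^ (Fintype.card 𝒬 - 1 - m)) := (ISF.of_modularForm t ht).pow hΓ _
  have h2 : ISF (Gamma0 N) ((j : ℤ) * 4) ((-1 : ℂ) ^ j • (fun z =>
      MvPolynomial.eval (fun q => quotientFunc t q z) (MvPolynomial.esymm 𝒬 ℂ j))) := by
    rw [hPfun]
    exact ((isf_levelOne _ P).of_levelOne N).smul _
  have h3 := hY (m - j)
  refine ((h1.mul hΓ h2).mul hΓ h3).congr_weight ?_
  have e1 : (Fintype.card 𝒬 - 1 - m) + j + (m - j) = Fintype.card 𝒬 - 1 := by omega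
  have e2 : (((Fintype.card 𝒬 - 1 - m : ℕ) : ℤ)) + (j : ℤ) + ((m - j : ℕ) : ℤ) =
      ((Fintype.card 𝒬 - 1 : ℕ) : ℤ) := by exact_mod_cast e1
  linear_combination 4 * e2

/-- Traces of `f * t ^ n` are spanned by integral forms. -/
theorem alg_isf_trace_cusp [Fintype 𝒬] (t : ModularForm (Gamma0 N) 4) (k : ℤ)
    (f : CuspForm (Gamma0 N) k) (n : ℕ) :
    ISF (Gamma0 N) (k + n * 4)
      (fun z => ∑ q : 𝒬, quotientFunc f q z * quotientFunc t q z ^ n) := by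
  have hinst : ‹Fintype 𝒬› = Fintype.ofFinite 𝒬 := Subsingleton.elim _ _
  subst hinst
  let _ : Fintype 𝒬 := Fintype.ofFinite 𝒬
  have h1 := isf_levelOne _ (ModularForm.trace 𝒮ℒ (f.mulModularForm (t.pow n)))
  have h2 : ⇑(ModularForm.trace 𝒮ℒ (f.mulModularForm (t.pow n))) =
      fun z => ∑ q : 𝒬, quotientFunc f q z * quotientFunc t q z ^ n := by
    rw [ModularForm.coe_trace]
    ext z
    rw [Finset.sum_apply]
    refine Finset.sum_congr rfl fun q _ => ?_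
    rw [alg_quotientFunc_mul_pow f t (f.mulModularForm (t.pow n)) n rfl
      (by rw [CuspForm.coe_mulModularForm, ModularForm.coe_pow]) q]
    rfl
  rw [← h2]
  exact h1.of_levelOne N

/-- Traces of `t ^ n` are spanned by integral forms. -/
theorem alg_isf_trace_pow [Fintype 𝒬] (t : ModularForm (Gamma0 N) 4) (n : ℕ) :
    ISF (Gamma0 N) (0 + n * 4)
      (fun z => ∑ q : 𝒬, (1 : ℂ) * quotientFunc t q z ^ n) := by
  have hinst : ‹Fintype 𝒬› = Fintype.ofFinite 𝒬 := Subsingleton.elim _ _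
  subst hinst
  let _ : Fintype 𝒬 := Fintype.ofFinite 𝒬
  have h1 := isf_levelOne _ (ModularForm.trace 𝒮ℒ (t.pow n))
  have h2 : ⇑(ModularForm.trace 𝒮ℒ (t.pow n)) =
      fun z => ∑ q : 𝒬, (1 : ℂ) * quotientFunc t q z ^ n := by
    rw [ModularForm.coe_trace]
    ext z
    rw [Finset.sum_apply]
    refine Finset.sum_congr rfl fun q _ => ?_
    rw [alg_quotientFunc_pow t (t.pow n) n rfl (ModularForm.coe_pow t n) q, one_mul]
    rfl
  rw [← h2]
  exact (h1.of_levelOne N).congr_weight (zero_add _).symm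

omit [NeZero N] in
/-- The Lagrange denominator `∏_{q ≠ q₀} (t - t_q)` does not vanish identically. -/
theorem alg_prod_ne_zero [Fintype 𝒬] [DecidableEq 𝒬] (t : ModularForm (Gamma0 N) 4)
    (hstab : ∀ h : SL(2, ℤ), h ∉ Gamma0 N → (⇑t) ∣[(4 : ℤ)] h ≠ ⇑t) :
    (fun z => ∏ q ∈ Finset.univ.erase (QuotientGroup.mk (1 : 𝒮ℒ) : 𝒬),
      (quotientFunc t (QuotientGroup.mk (1 : 𝒮ℒ) : 𝒬) z - quotientFunc t q z)) ≠ 0 := by
  intro h0
  have h1 : ∏ q ∈ Finset.univ.erase (QuotientGroup.mk (1 : 𝒮ℒ) : 𝒬),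
      (⇑t - quotientFunc t q) = 0 := by
    rw [← h0]
    ext z
    simp [Finset.prod_apply]
  rw [UpperHalfPlane.prod_eq_zero_iff
    (fun q _ => (ModularFormClass.holo t).sub (mdiff_quotientFunc t q))] at h1
  obtain ⟨q, hq, hq0⟩ := h1
  rw [Finset.mem_erase] at hq
  apply hq.1
  obtain ⟨⟨r, ⟨γ, rfl⟩⟩, rfl⟩ := QuotientGroup.mk_surjective q
  have h2 : (⇑t) ∣[(4 : ℤ)] γ⁻¹ = ⇑t := by
    have h3 := (sub_eq_zero.mp hq0).symm
    rw [show (⇑t) ∣[(4 : ℤ)] γ⁻¹ = (⇑t) ∣[(4 : ℤ)] (Matrix.SpecialLinearGroup.mapGL ℝ γ⁻¹) from rfl,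
      map_inv]
    exact h3
  have h3 : γ⁻¹ ∈ Gamma0 N := by
    by_contra hc
    exact hstab _ hc h2
  apply QuotientGroup.eq.mpr
  rw [Subgroup.mem_subgroupOf]
  exact ⟨γ⁻¹, h3, by simp⟩

end Core

/-- **The algebraic identities.** For a cusp form `f` of level `Γ₀(N)`: there are forms `C ≠ 0`
and `G` of level `Γ₀(N)` spanned by forms with integral `q`-expansion with `f * C = G`, and `f`
is a root of a monic polynomial whose coefficients are level one cusp forms. -/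
theorem exists_alg (N : ℕ) [NeZero N] (k : ℤ) (f : CuspForm (Gamma0 N) k) :
    ∃ (w : ℤ) (C G : ℍ → ℂ) (m : ℕ) (e : ℕ → ℍ → ℂ),
      ISF (Gamma0 N) w C ∧ C ≠ 0 ∧ ISF (Gamma0 N) (w + k) G ∧ (∀ z, f z * C z = G z) ∧
      0 < m ∧ (∀ i < m, ∃ E : CuspForm 𝒮ℒ ((i + 1) * k), ⇑E = e i) ∧
      ∀ z, f z ^ m + ∑ i ∈ Finset.range m, e i z * f z ^ (m - 1 - i) = 0 := by
  classical
  let Q := 𝒮ℒ ⧸ (Subgroup.subgroupOf (Gamma0 N : Subgroup (GL (Fin 2) ℝ)) 𝒮ℒ)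
  let _ : Fintype Q := Fintype.ofFinite Q
  obtain ⟨t, ht, hstab⟩ := exists_tN N
  let q₀ : Q := QuotientGroup.mk 1
  have hf0 : quotientFunc f q₀ = ⇑f := alg_quotientFunc_one f
  refine ⟨((Fintype.card Q - 1 : ℕ) : ℤ) * 4,
    fun z => ∏ q ∈ Finset.univ.erase q₀, (quotientFunc t q₀ z - quotientFunc t q z),
    fun z => f z * ∏ q ∈ Finset.univ.erase q₀, (quotientFunc t q₀ z - quotientFunc t q z),
    Fintype.card Q,
    fun i z => (-1) ^ (i + 1) *
      MvPolynomial.eval (fun q => quotientFunc f q z) (MvPolynomial.esymm Q ℂ (i + 1)),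
    ?_, alg_prod_ne_zero N t hstab, ?_, fun z => rfl, Fintype.card_pos, ?_, ?_⟩
  · have := alg_isf_lagrange N t ht 0 (fun _ _ => 1) (fun n => alg_isf_trace_pow N t n) q₀
      (alg_quotientFunc_one t)
    simpa using this
  · have := alg_isf_lagrange N t ht k (fun q => quotientFunc f q)
      (fun n => alg_isf_trace_cusp N t k f n) q₀ (alg_quotientFunc_one t)
    rw [hf0] at this
    exact this
  · intro i _
    obtain ⟨E, hE⟩ := exists_cuspForm_eval_symm f (MvPolynomial.esymm Q ℂ (i + 1)) (i + 1)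
      (Nat.succ_pos i) (MvPolynomial.esymm_isSymmetric _ _ _) (alg_esymm_isHomogeneous _ _)
    refine ⟨CuspForm.mcast (by push_cast; ring) (((-1 : ℂ) ^ (i + 1)) • E), ?_⟩
    ext z
    show (((-1 : ℂ) ^ (i + 1)) • E) z = _
    simp [hE z]
  · intro z
    have h := monic_identity (fun q => quotientFunc f q z) q₀
    simpa only [hf0] using h

end Fermat.Agent.S23
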