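import Fermat.Agent.S23.Defs

/-!
# S23: symmetric polynomials in the conjugates of a modular form are level one forms
-/

set_option autoImplicit false

namespace Fermat.Agent.S23

open UpperHalfPlane ModularForm Filter CongruenceSubgroup SlashInvariantForm
open scoped MatrixGroups Manifold Topology

/-- Scaling all variables of a homogeneous polynomial. -/
theorem eval_mul_const_of_isHomogeneous {σ : Type*} (p : MvPolynomial σ ℂ) {d : ℕ}
    (hp : p.IsHomogeneous d) (x : σ → ℂ) (c : ℂ) :
    MvPolynomial.eval (fun i => x i * c) p = c ^ d * MvPolynomial.eval x p := by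
  rw [MvPolynomial.eval_eq, MvPolynomial.eval_eq, Finset.mul_sum]
  refine Finset.sum_congr rfl fun s hs => ?_
  have hdeg : ∑ i ∈ s.support, s i = d := by
    have := hp (MvPolynomial.mem_support_iff.mp hs)
    simpa [Finsupp.weight_apply, Finsupp.sum] using this
  simp only [mul_pow, Finset.prod_mul_distrib, Finset.prod_pow_eq_pow_sum, hdeg]
  ring

/-- Polynomial expressions in holomorphic functions are holomorphic. -/
theorem mdiff_eval {σ : Type*} (Q : σ → ℍ → ℂ) (hQ : ∀ q, MDiff (Q q)) (p : MvPolynomial σ ℂ) :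
    MDiff (fun z => MvPolynomial.eval (fun q => Q q z) p) := by
  induction p using MvPolynomial.induction_on with
  | C a =>
    simp only [MvPolynomial.eval_C]
    exact mdifferentiable_const
  | add p q hp hq =>
    simp only [map_add]
    exact hp.add hq
  | mul_X p i hp =>
    simp only [map_mul, MvPolynomial.eval_X]
    exact hp.mul (hQ i)

/-- Polynomial expressions in functions bounded at `i∞` are bounded at `i∞`. -/
theorem isBoundedAtImInfty_eval {σ : Type*} (Q : σ → ℍ → ℂ) (hQ : ∀ q, IsBoundedAtImInfty (Q q))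
    (p : MvPolynomial σ ℂ) :
    IsBoundedAtImInfty (fun z => MvPolynomial.eval (fun q => Q q z) p) := by
  induction p using MvPolynomial.induction_on with
  | C a =>
    simp only [MvPolynomial.eval_C]
    exact const_boundedAtFilter atImInfty a
  | add p q hp hq =>
    simp only [map_add]
    exact BoundedAtFilter.add hp hq
  | mul_X p i hp =>
    simp only [map_mul, MvPolynomial.eval_X]
    exact BoundedAtFilter.mul hp (hQ i)

/-- Homogeneous polynomial expressions of positive degree in functions vanishing at `i∞`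
vanish at `i∞`. -/
theorem isZeroAtImInfty_eval {σ : Type*} (Q : σ → ℍ → ℂ) (hQ : ∀ q, IsZeroAtImInfty (Q q))
    (p : MvPolynomial σ ℂ) {d : ℕ} (hd : 0 < d) (hp : p.IsHomogeneous d) :
    IsZeroAtImInfty (fun z => MvPolynomial.eval (fun q => Q q z) p) := by
  have h1 : Tendsto (fun z => (fun q => Q q z)) atImInfty (𝓝 (0 : σ → ℂ)) :=
    tendsto_pi_nhds.mpr fun q => hQ q
  have h2 : Continuous fun x : σ → ℂ => MvPolynomial.eval x p := MvPolynomial.continuous_eval p
  have h3 := (h2.tendsto 0).comp h1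
  have h4 : MvPolynomial.eval (0 : σ → ℂ) p = 0 := by
    rw [MvPolynomial.eval_zero, MvPolynomial.constantCoeff_eq]
    exact hp.coeff_eq_zero (by simpa using hd.ne)
  rw [h4] at h3
  exact h3

/-- Slash of a homogeneous polynomial expression by an element of `SL(2, ℤ)`. -/
theorem eval_slash {σ : Type*} (Q : σ → ℍ → ℂ) (p : MvPolynomial σ ℂ) {d : ℕ}
    (hp : p.IsHomogeneous d) (k : ℤ) (γ : SL(2, ℤ)) :
    (fun z => MvPolynomial.eval (fun q => Q q z) p) ∣[(d : ℤ) * k] γ =
      fun z => MvPolynomial.eval (fun q => (Q q ∣[k] γ) z) p := by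
  ext z
  rw [SL_slash_apply]
  have : (fun q => (Q q ∣[k] γ) z) = fun q => Q q (γ • z) * denom γ z ^ (-k) := by
    ext q; rw [SL_slash_apply]
  rw [this, eval_mul_const_of_isHomogeneous p hp, mul_comm, ← zpow_natCast, ← zpow_mul]
  congr 2
  ring

section Conjugates

variable {𝒢 : Subgroup (GL (Fin 2) ℝ)} [𝒢.IsArithmetic] {k : ℤ} {F : Type*} [FunLike F ℍ ℂ]

local notation "𝒬" => 𝒮ℒ ⧸ (𝒢.subgroupOf 𝒮ℒ)

/-- An element of `SL(2, ℤ)` as an element of the subgroup `𝒮ℒ` of `GL(2, ℝ)`. -/
def slMem (γ : SL(2, ℤ)) : 𝒮ℒ := ⟨Matrix.SpecialLinearGroup.mapGL ℝ γ, γ, rfl⟩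

omit [𝒢.IsArithmetic] in
theorem mdiff_quotientFunc [ModularFormClass F 𝒢 k] (f : F) (q : 𝒬) :
    MDiff (quotientFunc f q) := by
  induction q using Quotient.inductionOn with
  | h r => exact (ModularFormClass.holo f).slash k _

omit [𝒢.IsArithmetic] in
theorem quotientFunc_slash_SL [SlashInvariantFormClass F 𝒢 k] (f : F) (q : 𝒬) (γ : SL(2, ℤ)) :
    quotientFunc f q ∣[k] γ = quotientFunc f ((slMem γ)⁻¹ • q) :=
  quotientFunc_smul f (slMem γ).2 q

theorem isBoundedAtImInfty_quotientFunc [ModularFormClass F 𝒢 k] (f : F) (q : 𝒬) :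
    IsBoundedAtImInfty (quotientFunc f q) := by
  induction q using Quotient.inductionOn with
  | h r =>
    obtain ⟨r, ⟨γ, rfl⟩⟩ := r
    have := ModularFormClass.bdd_at_infty_slash (k := k) f γ⁻¹
    show IsBoundedAtImInfty (⇑f ∣[k] (Matrix.SpecialLinearGroup.mapGL ℝ γ)⁻¹)
    rw [← map_inv]
    exact this

theorem isZeroAtImInfty_quotientFunc [CuspFormClass F 𝒢 k] (f : F) (q : 𝒬) :
    IsZeroAtImInfty (quotientFunc f q) := by
  induction q using Quotient.inductionOn with
  | h r =>
    obtain ⟨r, ⟨γ, rfl⟩⟩ := r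
    have := CuspFormClass.zero_at_infty_slash (k := k) f γ⁻¹
    show IsZeroAtImInfty (⇑f ∣[k] (Matrix.SpecialLinearGroup.mapGL ℝ γ)⁻¹)
    rw [← map_inv]
    exact this

omit [𝒢.IsArithmetic] in
/-- Slash invariance of symmetric homogeneous expressions in the conjugates. -/
theorem eval_quotientFunc_slash [SlashInvariantFormClass F 𝒢 k] (f : F) (p : MvPolynomial 𝒬 ℂ)
    {d : ℕ} (hsymm : p.IsSymmetric) (hhom : p.IsHomogeneous d) (γ : SL(2, ℤ)) :
    (fun z => MvPolynomial.eval (fun q => quotientFunc f q z) p) ∣[(d : ℤ) * k] γ =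
      fun z => MvPolynomial.eval (fun q => quotientFunc f q z) p := by
  rw [eval_slash _ p hhom]
  ext z
  set h : 𝒮ℒ := (slMem γ)⁻¹ with hh
  have h1 : (fun q => (quotientFunc f q ∣[k] γ) z) =
      (fun q => quotientFunc f q z) ∘ (MulAction.toPerm h : 𝒬 ≃ 𝒬) := by
    ext q
    rw [quotientFunc_slash_SL]
    rfl
  rw [h1, ← MvPolynomial.eval_rename, hsymm]

/-- Symmetric homogeneous polynomials in the conjugates of a modular form give level one
modular forms. -/
theorem exists_modularForm_eval_symm [ModularFormClass F 𝒢 k] (f : F) (p : MvPolynomial 𝒬 ℂ)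
    (d : ℕ) (hsymm : p.IsSymmetric) (hhom : p.IsHomogeneous d) :
    ∃ P : ModularForm 𝒮ℒ (d * k),
      ∀ z, P z = MvPolynomial.eval (fun q => quotientFunc f q z) p := by
  refine ⟨{ toFun := fun z => MvPolynomial.eval (fun q => quotientFunc f q z) p
            slash_action_eq' := ?_
            holo' := mdiff_eval _ (mdiff_quotientFunc f) p
            bdd_at_cusps' := ?_ }, fun z => rfl⟩
  · rintro _ ⟨γ, rfl⟩
    exact eval_quotientFunc_slash f p hsymm hhom γ
  · intro c hc
    rw [OnePoint.isBoundedAt_iff_forall_SL2Z hc]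
    intro γ _
    rw [eval_quotientFunc_slash f p hsymm hhom γ]
    exact isBoundedAtImInfty_eval _ (isBoundedAtImInfty_quotientFunc f) p

/-- Symmetric homogeneous polynomials of positive degree in the conjugates of a cusp form give
level one cusp forms. -/
theorem exists_cuspForm_eval_symm [CuspFormClass F 𝒢 k] (f : F) (p : MvPolynomial 𝒬 ℂ)
    (d : ℕ) (hd : 0 < d) (hsymm : p.IsSymmetric) (hhom : p.IsHomogeneous d) :
    ∃ P : CuspForm 𝒮ℒ (d * k),
      ∀ z, P z = MvPolynomial.eval (fun q => quotientFunc f q z) p := by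
  refine ⟨{ toFun := fun z => MvPolynomial.eval (fun q => quotientFunc f q z) p
            slash_action_eq' := ?_
            holo' := mdiff_eval _ (mdiff_quotientFunc f) p
            zero_at_cusps' := ?_ }, fun z => rfl⟩
  · rintro _ ⟨γ, rfl⟩
    exact eval_quotientFunc_slash f p hsymm hhom γ
  · intro c hc
    rw [OnePoint.isZeroAt_iff_forall_SL2Z hc]
    intro γ _
    rw [eval_quotientFunc_slash f p hsymm hhom γ]
    exact isZeroAtImInfty_eval _ (isZeroAtImInfty_quotientFunc f) p hd hhom

end Conjugates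

end Fermat.Agent.S23
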