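import Fermat.Agent.S23.QNice

/-!
# S23: the analytic lemma

A formal power series which is a quotient of two `Γ₀(N)`-forms and is integral over level one
cusp forms is the `q`-expansion of a cusp form.
-/

set_option autoImplicit false

namespace Fermat.Agent.S23

open UpperHalfPlane ModularForm Filter CongruenceSubgroup
open scoped MatrixGroups Manifold Topology

/-- The order of a finite sum is at least the minimum of the orders. -/
theorem le_analyticOrderAt_finset_sum {ι : Type*} (s : Finset ι) (f : ι → ℂ → ℂ) (z₀ : ℂ)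
    (n : ℕ∞) (h : ∀ i ∈ s, n ≤ analyticOrderAt (f i) z₀) :
    n ≤ analyticOrderAt (∑ i ∈ s, f i) z₀ := by
  classical
  induction s using Finset.induction_on with
  | empty =>
    have : analyticOrderAt (∑ i ∈ (∅ : Finset ι), f i) z₀ = ⊤ := by
      rw [analyticOrderAt_eq_top]; simp
    rw [this]; exact le_top
  | insert i t hi IH =>
    rw [Finset.sum_insert hi]
    refine le_trans (le_min (h i (Finset.mem_insert_self i t)) (IH fun j hj => h j (Finset.mem_insert_of_mem hj))) le_analyticOrderAt_add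

/-- Local divisibility: if `g` satisfies a monic equation over analytic functions whose lower
terms are divisible by the corresponding powers of `c`, then the order of `c` is at most the
order of `g`. -/
theorem analyticOrderAt_le_of_monic_eq {c g : ℂ → ℂ} {z₀ : ℂ} (hc : AnalyticAt ℂ c z₀)
    (hg : AnalyticAt ℂ g z₀) (m : ℕ) (e : ℕ → ℂ → ℂ)
    (he : ∀ i < m, AnalyticAt ℂ (e i) z₀)
    (h : ∀ᶠ z in 𝓝 z₀,
      g z ^ m + ∑ i ∈ Finset.range m, e i z * g z ^ (m - 1 - i) * c z ^ (i + 1) = 0) :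
    analyticOrderAt c z₀ ≤ analyticOrderAt g z₀ := by
  by_contra hlt
  rw [not_le] at hlt
  have hb : analyticOrderAt g z₀ ≠ ⊤ := ne_top_of_lt hlt
  obtain ⟨n, hn⟩ := ENat.ne_top_iff_exists.mp hb
  have ha : (n : ℕ∞) + 1 ≤ analyticOrderAt c z₀ := by
    rw [hn]; exact (ENat.add_one_le_iff hb).mpr hlt
  set S : ℂ → ℂ := ∑ i ∈ Finset.range m, (e i * g ^ (m - 1 - i) * c ^ (i + 1)) with hS
  have h1 : g ^ m =ᶠ[𝓝 z₀] -S := by
    filter_upwards [h] with z hz
    have : S z = ∑ i ∈ Finset.range m, e i z * g z ^ (m - 1 - i) * c z ^ (i + 1) := by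
      simp [hS, Finset.sum_apply]
    simp only [Pi.pow_apply, Pi.neg_apply, this]
    exact eq_neg_of_add_eq_zero_left hz
  have h2 : analyticOrderAt (g ^ m) z₀ = ((m * n : ℕ) : ℕ∞) := by
    rw [analyticOrderAt_pow hg, ← hn]; simp [nsmul_eq_mul]
  have h3 : ((m * n + 1 : ℕ) : ℕ∞) ≤ analyticOrderAt S z₀ := by
    refine le_analyticOrderAt_finset_sum _ _ _ _ fun i hi => ?_
    have hi' : i < m := Finset.mem_range.mp hi
    have hei := he i hi'
    rw [analyticOrderAt_mul (hei.mul (hg.pow _)) (hc.pow _), analyticOrderAt_mul hei (hg.pow _),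
      analyticOrderAt_pow hg, analyticOrderAt_pow hc, ← hn]
    have hnat : m * n + 1 ≤ (m - 1 - i) * n + (i + 1) * (n + 1) := by
      have hm' : m = (m - 1 - i) + (i + 1) := by omega
      calc m * n + 1 = ((m - 1 - i) + (i + 1)) * n + 1 := by rw [← hm']
        _ ≤ (m - 1 - i) * n + (i + 1) * (n + 1) := by nlinarith
    calc ((m * n + 1 : ℕ) : ℕ∞) ≤ (((m - 1 - i) * n + (i + 1) * (n + 1) : ℕ) : ℕ∞) := by
          exact_mod_cast hnat
      _ = (m - 1 - i) • (n : ℕ∞) + (i + 1) • ((n : ℕ∞) + 1) := by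
          push_cast; simp only [nsmul_eq_mul]; push_cast; ring
      _ ≤ (m - 1 - i) • (n : ℕ∞) + (i + 1) • analyticOrderAt c z₀ := by
          gcongr
      _ ≤ analyticOrderAt (e i) z₀ + (m - 1 - i) • (n : ℕ∞) + (i + 1) • analyticOrderAt c z₀ := by
          gcongr
          exact le_add_self
  rw [analyticOrderAt_congr h1, analyticOrderAt_neg] at h2
  rw [h2] at h3
  have : m * n + 1 ≤ m * n := by exact_mod_cast h3
  omega

/-- The quotient `g / c`, extended through removable singularities. -/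
noncomputable def quotFun (c g : ℂ → ℂ) : ℂ → ℂ :=
  fun w => limUnder (𝓝[≠] w) (fun z => g z / c z)

theorem quotFun_spec {c g : ℂ → ℂ} {z₀ : ℂ} (hc : AnalyticAt ℂ c z₀) (hg : AnalyticAt ℂ g z₀)
    (hc' : analyticOrderAt c z₀ ≠ ⊤) (hle : analyticOrderAt c z₀ ≤ analyticOrderAt g z₀) :
    AnalyticAt ℂ (quotFun c g) z₀ ∧ quotFun c g z₀ * c z₀ = g z₀ := by
  obtain ⟨n, hn⟩ := ENat.ne_top_iff_exists.mp hc'
  obtain ⟨c₁, hc₁, hc₁0, hc₁e⟩ := (hc.analyticOrderAt_eq_natCast (n := n)).mp hn.symm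
  obtain ⟨g₁, hg₁, hg₁e⟩ := (natCast_le_analyticOrderAt hg (n := n)).mp (hn ▸ hle)
  set r : ℂ → ℂ := fun z => g₁ z / c₁ z with hr
  have hran : AnalyticAt ℂ r z₀ := hg₁.div hc₁ hc₁0
  have hP : ∀ᶠ z in 𝓝 z₀, c₁ z ≠ 0 ∧ c z = (z - z₀) ^ n • c₁ z ∧ g z = (z - z₀) ^ n • g₁ z ∧
      AnalyticAt ℂ r z := by
    filter_upwards [hc₁.continuousAt.eventually_ne hc₁0, hc₁e, hg₁e, hran.eventually_analyticAt]
      with z h1 h2 h3 h4 using ⟨h1, h2, h3, h4⟩
  have hev : quotFun c g =ᶠ[𝓝 z₀] r := by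
    filter_upwards [hP.eventually_nhds] with w hw
    have hw0 : ∀ᶠ z in 𝓝[≠] w, z ≠ z₀ := by
      rcases eq_or_ne w z₀ with rfl | hne
      · exact eventually_mem_nhdsWithin
      · exact (isOpen_ne.eventually_mem hne).filter_mono nhdsWithin_le_nhds
    have hw1 : (fun z => g z / c z) =ᶠ[𝓝[≠] w] r := by
      filter_upwards [hw.filter_mono nhdsWithin_le_nhds, hw0] with z ⟨h1, h2, h3, _⟩ hz
      have hz' : (z - z₀) ^ n ≠ 0 := pow_ne_zero _ (sub_ne_zero_of_ne hz)
      simp only [h2, h3, hr, smul_eq_mul]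
      field_simp
    have hw2 : Tendsto r (𝓝[≠] w) (𝓝 (r w)) :=
      hw.self_of_nhds.2.2.2.continuousAt.tendsto.mono_left nhdsWithin_le_nhds
    exact (hw2.congr' hw1.symm).limUnder_eq
  refine ⟨hran.congr hev.symm, ?_⟩
  rw [hev.self_of_nhds]
  obtain ⟨h1, h2, h3, -⟩ := hP.self_of_nhds
  simp only [h2, h3, hr, smul_eq_mul]
  field_simp

theorem isPreconnected_upperHalfPlaneSet : IsPreconnected upperHalfPlaneSet :=
  (Complex.isConnected_of_upperHalfPlane subset_rfl (by grind)).isPreconnected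

/-- Division of holomorphic functions on the upper half plane under an integrality condition. -/
theorem exists_mdiff_quotient {c g : ℍ → ℂ} (hc : MDiff c) (hg : MDiff g) (hc0 : c ≠ 0)
    (m : ℕ) (e : ℕ → ℍ → ℂ) (he : ∀ i < m, MDiff (e i))
    (h : ∀ z, g z ^ m + ∑ i ∈ Finset.range m, e i z * g z ^ (m - 1 - i) * c z ^ (i + 1) = 0) :
    ∃ H : ℍ → ℂ, MDiff H ∧ ∀ z, H z * c z = g z := by
  have hcA : AnalyticOnNhd ℂ (c ∘ ofComplex) upperHalfPlaneSet :=
    (UpperHalfPlane.mdifferentiable_iff.mp hc).analyticOnNhd isOpen_upperHalfPlaneSet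
  have hgA : AnalyticOnNhd ℂ (g ∘ ofComplex) upperHalfPlaneSet :=
    (UpperHalfPlane.mdifferentiable_iff.mp hg).analyticOnNhd isOpen_upperHalfPlaneSet
  have heA : ∀ i < m, AnalyticOnNhd ℂ (e i ∘ ofComplex) upperHalfPlaneSet := fun i hi =>
    (UpperHalfPlane.mdifferentiable_iff.mp (he i hi)).analyticOnNhd isOpen_upperHalfPlaneSet
  have hord : ∀ z₀ ∈ upperHalfPlaneSet, analyticOrderAt (c ∘ ofComplex) z₀ ≠ ⊤ := by
    intro z₀ hz₀ htop
    rw [analyticOrderAt_eq_top] at htop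
    have := hcA.eqOn_zero_of_preconnected_of_eventuallyEq_zero isPreconnected_upperHalfPlaneSet
      hz₀ htop
    apply hc0
    ext τ
    have h1 := this τ.im_pos
    simpa [ofComplex_apply] using h1
  have hle : ∀ z₀ ∈ upperHalfPlaneSet,
      analyticOrderAt (c ∘ ofComplex) z₀ ≤ analyticOrderAt (g ∘ ofComplex) z₀ := by
    intro z₀ hz₀
    refine analyticOrderAt_le_of_monic_eq (hcA z₀ hz₀) (hgA z₀ hz₀) m (fun i => e i ∘ ofComplex)
      (fun i hi => heA i hi z₀ hz₀) ?_
    filter_upwards [isOpen_upperHalfPlaneSet.mem_nhds hz₀] with z _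
    exact h (ofComplex z)
  have hspec := fun z₀ hz₀ => quotFun_spec (hcA z₀ hz₀) (hgA z₀ hz₀) (hord z₀ hz₀) (hle z₀ hz₀)
  refine ⟨fun τ => quotFun (c ∘ ofComplex) (g ∘ ofComplex) τ, ?_, fun τ => ?_⟩
  · rw [UpperHalfPlane.mdifferentiable_iff]
    have hd : DifferentiableOn ℂ (quotFun (c ∘ ofComplex) (g ∘ ofComplex)) upperHalfPlaneSet :=
      fun z hz => (hspec z hz).1.differentiableAt.differentiableWithinAt
    refine hd.congr fun z hz => ?_
    simp only [Function.comp_apply]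
    rw [ofComplex_apply_of_im_pos hz]
  · have := (hspec τ τ.im_pos).2
    simpa [ofComplex_apply] using this

/-- Root bound for a monic polynomial with small lower coefficients. -/
theorem norm_pow_le_of_monic_eq {x : ℂ} {m : ℕ} (a : ℕ → ℂ)
    (h : x ^ m + ∑ i ∈ Finset.range m, a i * x ^ (m - 1 - i) = 0)
    (hS : ∑ i ∈ Finset.range m, ‖a i‖ ≤ 1) : ‖x‖ ^ m ≤ ∑ i ∈ Finset.range m, ‖a i‖ := by
  have h0 : ‖x‖ ^ m ≤ ∑ i ∈ Finset.range m, ‖a i‖ * ‖x‖ ^ (m - 1 - i) := by
    have : x ^ m = -∑ i ∈ Finset.range m, a i * x ^ (m - 1 - i) := eq_neg_of_add_eq_zero_left h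
    calc ‖x‖ ^ m = ‖x ^ m‖ := (norm_pow _ _).symm
      _ = ‖∑ i ∈ Finset.range m, a i * x ^ (m - 1 - i)‖ := by rw [this, norm_neg]
      _ ≤ ∑ i ∈ Finset.range m, ‖a i * x ^ (m - 1 - i)‖ := norm_sum_le _ _
      _ = ∑ i ∈ Finset.range m, ‖a i‖ * ‖x‖ ^ (m - 1 - i) := by simp [norm_pow]
  rcases le_or_gt ‖x‖ 1 with hx | hx
  · refine h0.trans (Finset.sum_le_sum fun i _ => ?_)
    exact mul_le_of_le_one_right (norm_nonneg _) (pow_le_one₀ (norm_nonneg _) hx)
  · exfalso
    rcases Nat.eq_zero_or_pos m with rfl | hm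
    · simp at h
    have h1 : ‖x‖ ^ m ≤ (∑ i ∈ Finset.range m, ‖a i‖) * ‖x‖ ^ (m - 1) := by
      rw [Finset.sum_mul]
      refine h0.trans (Finset.sum_le_sum fun i _ => ?_)
      exact mul_le_mul_of_nonneg_left (pow_le_pow_right₀ hx.le (by omega)) (norm_nonneg _)
    have h2 : ‖x‖ ^ m = ‖x‖ * ‖x‖ ^ (m - 1) := by
      rw [← pow_succ']; congr 1; omega
    have h3 : 0 < ‖x‖ ^ (m - 1) := pow_pos (lt_trans one_pos hx) _
    rw [h2] at h1
    have h4 : ‖x‖ ≤ ∑ i ∈ Finset.range m, ‖a i‖ := le_of_mul_le_mul_right h1 h3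
    linarith

/-- A formal monic relation between `q`-expansions gives a pointwise relation. -/
theorem monic_identity_of_formal {c g : ℍ → ℂ} (hc : QNice c) (hg : QNice g) (m : ℕ)
    (e : ℕ → ℍ → ℂ) (he : ∀ i < m, QNice (e i)) (φ : PowerSeries ℂ)
    (h1 : φ * qExpansion 1 c = qExpansion 1 g)
    (h2 : φ ^ m + ∑ i ∈ Finset.range m, qExpansion 1 (e i) * φ ^ (m - 1 - i) = 0) :
    ∀ z, g z ^ m + ∑ i ∈ Finset.range m, e i z * g z ^ (m - 1 - i) * c z ^ (i + 1) = 0 := by
  set Gf : ℍ → ℂ := g ^ m + ∑ i ∈ Finset.range m, e i * g ^ (m - 1 - i) * c ^ (i + 1) with hGf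
  have hterm : ∀ i ∈ Finset.range m, QNice (e i * g ^ (m - 1 - i) * c ^ (i + 1)) := fun i hi =>
    ((he i (Finset.mem_range.mp hi)).mul (hg.pow _)).mul (hc.pow _)
  have hG : QNice Gf := (hg.pow m).add (QNice.sum _ hterm)
  have hq : qExpansion 1 Gf = 0 := by
    rw [hGf, (hg.pow m).qExpansion_add (QNice.sum _ hterm), hg.qExpansion_pow,
      QNice.qExpansion_sum _ hterm]
    have : ∀ i ∈ Finset.range m, qExpansion 1 (e i * g ^ (m - 1 - i) * c ^ (i + 1)) =
        qExpansion 1 c ^ m * (qExpansion 1 (e i) * φ ^ (m - 1 - i)) := by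
      intro i hi
      have hi' : i < m := Finset.mem_range.mp hi
      rw [((he i hi').mul (hg.pow _)).qExpansion_mul (hc.pow _),
        (he i hi').qExpansion_mul (hg.pow _), hg.qExpansion_pow, hc.qExpansion_pow, ← h1]
      have hpow : qExpansion 1 c ^ m =
          qExpansion 1 c ^ (m - 1 - i) * qExpansion 1 c ^ (i + 1) := by
        rw [← pow_add]; congr 1; omega
      rw [hpow]
      ring
    rw [Finset.sum_congr rfl this, ← Finset.mul_sum, ← h1, mul_pow, mul_comm (φ ^ m),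
      ← mul_add, h2, mul_zero]
  have := hG.eq_zero_of_qExpansion_eq_zero hq
  intro z
  have hz := congrFun this z
  simpa [hGf, Finset.sum_apply] using hz

/-- A function satisfying a monic equation over level one cusp forms vanishes at every cusp. -/
theorem isZeroAtImInfty_slash_of_monic {H : ℍ → ℂ} {k : ℤ} (m : ℕ) (e : ℕ → ℍ → ℂ)
    (he : ∀ i < m, ∃ E : CuspForm 𝒮ℒ ((i + 1) * k), ⇑E = e i)
    (hpoly : ∀ z, H z ^ m + ∑ i ∈ Finset.range m, e i z * H z ^ (m - 1 - i) = 0)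
    (γ : SL(2, ℤ)) : IsZeroAtImInfty (H ∣[k] γ) := by
  -- the slashed function satisfies the same equation
  have hpt : ∀ z, (H ∣[k] γ) z ^ m +
      ∑ i ∈ Finset.range m, e i z * (H ∣[k] γ) z ^ (m - 1 - i) = 0 := by
    intro z
    set D : ℂ := denom γ z ^ (-k) with hD
    have hH : (H ∣[k] γ) z = H (γ • z) * D := by rw [SL_slash_apply]
    have hei : ∀ i ∈ Finset.range m, e i z = e i (γ • z) * D ^ (i + 1) := by
      intro i hi
      obtain ⟨E, hE⟩ := he i (Finset.mem_range.mp hi)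
      have hγ : (γ : GL (Fin 2) ℝ) ∈ 𝒮ℒ := ⟨γ, rfl⟩
      have h1 := congrFun (SlashInvariantForm.slash_action_eqn E _ hγ) z
      rw [← SL_slash, SL_slash_apply, hE] at h1
      rw [← h1, hD, ← zpow_natCast, ← zpow_mul]
      congr 2
      push_cast
      ring
    rw [hH]
    have key : (H (γ • z) * D) ^ m +
        ∑ i ∈ Finset.range m, e i z * (H (γ • z) * D) ^ (m - 1 - i) =
        D ^ m * (H (γ • z) ^ m +
          ∑ i ∈ Finset.range m, e i (γ • z) * H (γ • z) ^ (m - 1 - i)) := by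
      rw [mul_add, Finset.mul_sum, mul_pow]
      congr 1
      · ring
      · refine Finset.sum_congr rfl fun i hi => ?_
        have hpow : D ^ m = D ^ (m - 1 - i) * D ^ (i + 1) := by
          rw [← pow_add]; congr 1; have := Finset.mem_range.mp hi; omega
        rw [hei i hi, hpow, mul_pow]
        ring
    rw [key, hpoly, mul_zero]
  -- the coefficients tend to zero
  have hS : Tendsto (fun z => ∑ i ∈ Finset.range m, ‖e i z‖) atImInfty (𝓝 0) := by
    have : (0 : ℝ) = ∑ i ∈ Finset.range m, (0 : ℝ) := by simp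
    rw [this]
    refine tendsto_finsetSum _ fun i hi => ?_
    obtain ⟨E, hE⟩ := he i (Finset.mem_range.mp hi)
    have h0 : IsZeroAtImInfty ⇑E := CuspFormClass.zero_at_infty E
    rw [← hE]
    exact tendsto_zero_iff_norm_tendsto_zero.mp h0
  rw [IsZeroAtImInfty, ZeroAtFilter, Metric.tendsto_nhds]
  intro ε hε
  have hε' : 0 < min 1 (ε ^ m) := lt_min one_pos (pow_pos hε m)
  filter_upwards [(Metric.tendsto_nhds.mp hS) _ hε'] with z hz
  rw [Real.dist_eq, sub_zero, abs_of_nonneg (Finset.sum_nonneg fun i _ => norm_nonneg _)] at hz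
  have h1 := norm_pow_le_of_monic_eq (fun i => e i z) (hpt z) (hz.le.trans (min_le_left _ _))
  rw [dist_zero_right]
  exact lt_of_pow_lt_pow_left₀ m hε.le (h1.trans_lt (hz.trans_le (min_le_right _ _)))

/-- **The analytic lemma.** A formal power series `φ` with `φ * c = g` for `Γ₀(N)`-forms `c ≠ 0`,
`g`, and satisfying a monic equation over level one cusp forms, is the `q`-expansion of a cusp
form of level `Γ₀(N)`. -/
theorem exists_cuspForm_of_formal (N : ℕ) [NeZero N] (k w : ℤ)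
    (c : ModularForm (Gamma0 N) w) (hc : c ≠ 0)
    (g : ModularForm (Gamma0 N) (w + k)) (m : ℕ) (hm : 0 < m) (e : ℕ → ℍ → ℂ)
    (he : ∀ i < m, ∃ E : CuspForm 𝒮ℒ ((i + 1) * k), ⇑E = e i)
    (φ : PowerSeries ℂ)
    (h1 : φ * qExpansion 1 c = qExpansion 1 g)
    (h2 : φ ^ m + ∑ i ∈ Finset.range m, qExpansion 1 (e i) * φ ^ (m - 1 - i) = 0) :
    ∃ h : CuspForm (Gamma0 N) k, qExpansion 1 h = φ := by
  have heN : ∀ i < m, QNice (e i) := fun i hi => by
    obtain ⟨E, hE⟩ := he i hi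
    rw [← hE]
    exact qnice_SL E
  have hcN : QNice ⇑c := qnice_Gamma0 c
  have hgN : QNice ⇑g := qnice_Gamma0 g
  have hid := monic_identity_of_formal hcN hgN m e heN φ h1 h2
  have hc0 : (⇑c : ℍ → ℂ) ≠ 0 := fun h => hc (DFunLike.coe_injective h)
  obtain ⟨H, hH, hHc⟩ := exists_mdiff_quotient hcN.holo hgN.holo hc0 m e
    (fun i hi => (heN i hi).holo) hid
  have hHc' : H * ⇑c = ⇑g := funext hHc
  -- polynomial identity for `H`
  have hpoly : ∀ z, H z ^ m + ∑ i ∈ Finset.range m, e i z * H z ^ (m - 1 - i) = 0 := by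
    set Φ : ℍ → ℂ := H ^ m + ∑ i ∈ Finset.range m, e i * H ^ (m - 1 - i) with hΦ
    have hΦd : MDiff Φ := (hH.pow m).add
      (MDifferentiable.sum fun i hi => ((heN i (Finset.mem_range.mp hi)).holo).mul (hH.pow _))
    have hcm : MDiff ((⇑c : ℍ → ℂ) ^ m) := hcN.holo.pow m
    have hmul : Φ * (⇑c : ℍ → ℂ) ^ m = 0 := by
      ext z
      have hz := hid z
      rw [← hHc z] at hz
      simp only [hΦ, Pi.mul_apply, Pi.add_apply, Pi.pow_apply, Finset.sum_apply, Pi.zero_apply]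
      rw [← hz, add_mul, Finset.sum_mul, mul_pow]
      congr 1
      refine Finset.sum_congr rfl fun i hi => ?_
      have hpow : c z ^ m = c z ^ (m - 1 - i) * c z ^ (i + 1) := by
        rw [← pow_add]; congr 1; have := Finset.mem_range.mp hi; omega
      rw [hpow, mul_pow]
      ring
    rcases (UpperHalfPlane.mul_eq_zero_iff hΦd hcm).mp hmul with h | h
    · intro z
      have := congrFun h z
      simpa [hΦ, Finset.sum_apply] using this
    · exfalso
      apply hc0
      ext z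
      have h3 : c z ^ m = 0 := congrFun h z
      exact (pow_eq_zero_iff hm.ne').mp h3
  -- slash invariance
  have hslash : ∀ γ ∈ (Gamma0 N : Subgroup (GL (Fin 2) ℝ)), H ∣[k] γ = H := by
    intro γ hγ
    obtain ⟨γ', hγ', rfl⟩ := Subgroup.mem_map.mp hγ
    have hcγ : (⇑c : ℍ → ℂ) ∣[w] γ' = ⇑c := SlashInvariantForm.slash_action_eqn c _ hγ
    have hgγ : (⇑g : ℍ → ℂ) ∣[k + w] γ' = ⇑g := by
      have := SlashInvariantForm.slash_action_eqn g _ hγ
      rw [add_comm]
      exact this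
    have hkey : (H ∣[k] γ' - H) * ⇑c = 0 := by
      rw [sub_mul, hHc']
      nth_rewrite 1 [← hcγ]
      rw [← mul_slash_SL2, hHc', hgγ, sub_self]
    rcases (UpperHalfPlane.mul_eq_zero_iff ((hH.slash k _).sub hH) hcN.holo).mp hkey with h | h
    · exact sub_eq_zero.mp h
    · exact absurd h hc0
  -- bundle
  let hform : CuspForm (Gamma0 N) k :=
    { toFun := H
      slash_action_eq' := hslash
      holo' := hH
      zero_at_cusps' := fun {c} hc => by
        rw [Subgroup.IsArithmetic.isCusp_iff_isCusp_SL2Z] at hc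
        rw [OnePoint.isZeroAt_iff_forall_SL2Z hc]
        intro γ _
        exact isZeroAtImInfty_slash_of_monic m e he hpoly γ }
  refine ⟨hform, ?_⟩
  have hHN : QNice ⇑hform := qnice_Gamma0 hform
  have hq : qExpansion 1 ⇑hform * qExpansion 1 ⇑c = φ * qExpansion 1 ⇑c := by
    rw [← hHN.qExpansion_mul hcN, h1]
    congr 1
  have hqc : qExpansion 1 ⇑c ≠ 0 := fun h => hc0 (hcN.eq_zero_of_qExpansion_eq_zero h)
  exact mul_right_cancel₀ hqc hq

end Fermat.Agent.S23
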