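import Fermat.Agent.S23.Defs

/-!
# S23, piece (C): bounded denominators via normality of `ℤ⟦X⟧`

`exists_int_of_integral_of_mul_eq`: a rational power series `y` which is a quotient `B / A` of
integral power series and which is integral over `ℤ⟦X⟧` has integer coefficients.
-/

set_option autoImplicit false

namespace Fermat.Agent.S23

open UpperHalfPlane ModularForm CongruenceSubgroup
open scoped MatrixGroups

theorem normal_map_intCast_injective :
    Function.Injective (PowerSeries.map (Int.castRingHom ℚ)) := by
  intro a b h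
  ext n
  have := congrArg (PowerSeries.coeff n) h
  simpa using this

theorem exists_int_of_integral_of_mul_eq (y : PowerSeries ℚ) (A B : PowerSeries ℤ) (hA : A ≠ 0)
    (hAB : y * A.map (Int.castRingHom ℚ) = B.map (Int.castRingHom ℚ))
    (p : Polynomial (PowerSeries ℤ)) (hp : p.Monic)
    (hy : Polynomial.eval₂ (PowerSeries.map (Int.castRingHom ℚ)) y p = 0) :
    ∃ z : PowerSeries ℤ, y = z.map (Int.castRingHom ℚ) := by
  classical
  let φ : PowerSeries ℤ →+* PowerSeries ℚ := PowerSeries.map (Int.castRingHom ℚ)
  have hφ : Function.Injective φ := normal_map_intCast_injective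
  let K := FractionRing (PowerSeries ℤ)
  let FS := FractionRing (PowerSeries ℚ)
  let g : PowerSeries ℤ →+* FS := (algebraMap (PowerSeries ℚ) FS).comp φ
  have hg : Function.Injective g :=
    (IsFractionRing.injective (PowerSeries ℚ) FS).comp hφ
  let ψ : K →+* FS := IsFractionRing.lift hg
  have hψ : ∀ a : PowerSeries ℤ, ψ (algebraMap (PowerSeries ℤ) K a) = g a :=
    fun a => IsFractionRing.lift_algebraMap hg a
  have hψinj : Function.Injective ψ := ψ.injective
  have hφA : φ A ≠ 0 := fun h => hA (hφ (h.trans (map_zero φ).symm))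
  have hgA : g A ≠ 0 := fun h => hA (hg (h.trans (map_zero g).symm))
  -- the candidate element of the fraction field
  let y' : K := algebraMap (PowerSeries ℤ) K B / algebraMap (PowerSeries ℤ) K A
  have hy' : ψ y' = algebraMap (PowerSeries ℚ) FS y := by
    show ψ (algebraMap (PowerSeries ℤ) K B / algebraMap (PowerSeries ℤ) K A) = _
    rw [map_div₀, hψ, hψ, div_eq_iff hgA]
    show algebraMap (PowerSeries ℚ) FS (φ B) = _ * algebraMap (PowerSeries ℚ) FS (φ A)
    rw [← map_mul]
    congr 1
    exact hAB.symm
  have hcomp : ψ.comp (algebraMap (PowerSeries ℤ) K) = g := RingHom.ext hψ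
  have hint : IsIntegral (PowerSeries ℤ) y' := by
    refine ⟨p, hp, ?_⟩
    apply hψinj
    rw [Polynomial.hom_eval₂, hcomp, hy', map_zero]
    show Polynomial.eval₂ ((algebraMap (PowerSeries ℚ) FS).comp φ) _ p = 0
    rw [← Polynomial.hom_eval₂]
    show algebraMap (PowerSeries ℚ) FS (Polynomial.eval₂ φ y p) = 0
    rw [hy, map_zero]
  obtain ⟨z, hz⟩ := (IsIntegrallyClosed.isIntegral_iff (R := PowerSeries ℤ) (K := K)).mp hint
  refine ⟨z, ?_⟩
  have h1 : algebraMap (PowerSeries ℚ) FS y = algebraMap (PowerSeries ℚ) FS (φ z) := by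
    rw [← hy', ← hz, hψ]
    rfl
  exact IsFractionRing.injective (PowerSeries ℚ) FS h1

end Fermat.Agent.S23
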