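import Fermat.Agent.S23.Alg
import Fermat.Agent.S23.ISF
import Fermat.Agent.S23.Normal
import Fermat.Agent.S23.LevelOne

/-!
# S23, piece (L): cusp forms on `Γ₀(N)` with rational `q`-expansion have bounded denominators
-/

set_option autoImplicit false

namespace Fermat.Agent.S23

open UpperHalfPlane ModularForm CongruenceSubgroup
open scoped MatrixGroups

/-- Applying a `ℚ`-linear functional `ℂ → ℚ` coefficientwise. -/
noncomputable def bdProj (π : ℂ →ₗ[ℚ] ℚ) (p : PowerSeries ℂ) : PowerSeries ℚ :=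
  PowerSeries.mk fun n => π (p.coeff n)

theorem bdProj_coeff (π : ℂ →ₗ[ℚ] ℚ) (p : PowerSeries ℂ) (n : ℕ) :
    (bdProj π p).coeff n = π (p.coeff n) :=
  PowerSeries.coeff_mk _ _

theorem bdProj_zero (π : ℂ →ₗ[ℚ] ℚ) : bdProj π 0 = 0 := by
  ext n
  simp [bdProj_coeff]

theorem bdProj_add (π : ℂ →ₗ[ℚ] ℚ) (p q : PowerSeries ℂ) :
    bdProj π (p + q) = bdProj π p + bdProj π q := by
  ext n
  simp [bdProj_coeff]

theorem bdProj_sum (π : ℂ →ₗ[ℚ] ℚ) {ι : Type*} (s : Finset ι) (p : ι → PowerSeries ℂ) :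
    bdProj π (∑ i ∈ s, p i) = ∑ i ∈ s, bdProj π (p i) := by
  classical
  induction s using Finset.induction_on with
  | empty => simpa using bdProj_zero π
  | insert i t hi IH => rw [Finset.sum_insert hi, Finset.sum_insert hi, bdProj_add, IH]

theorem bdProj_one (π : ℂ →ₗ[ℚ] ℚ) (h1 : π 1 = 1) : bdProj π 1 = 1 := by
  ext n
  rw [bdProj_coeff, PowerSeries.coeff_one, PowerSeries.coeff_one]
  split_ifs
  · exact h1
  · exact map_zero π

theorem bdProj_map_mul (π : ℂ →ₗ[ℚ] ℚ) (y : PowerSeries ℚ) (p : PowerSeries ℂ) :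
    bdProj π (y.map (algebraMap ℚ ℂ) * p) = y * bdProj π p := by
  ext n
  rw [bdProj_coeff, PowerSeries.coeff_mul, PowerSeries.coeff_mul, map_sum]
  refine Finset.sum_congr rfl fun x _ => ?_
  rw [PowerSeries.coeff_map, bdProj_coeff, ← Algebra.smul_def, map_smul, smul_eq_mul]

theorem bdProj_isf {Γ : Subgroup (GL (Fin 2) ℝ)} {k : ℤ} {F : ℍ → ℂ}
    (hΓ : (1 : ℝ) ∈ Γ.strictPeriods) (h : ISF Γ k F) (π : ℂ →ₗ[ℚ] ℚ) :
    ∃ D : ℤ, D ≠ 0 ∧ ∃ p : PowerSeries ℤ,
      PowerSeries.C (D : ℚ) * bdProj π (qExpansion 1 F) = p.map (Int.castRingHom ℚ) := by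
  obtain ⟨D, hD, p, hp⟩ := h.exists_proj hΓ π
  refine ⟨D, hD, p, ?_⟩
  ext n
  rw [PowerSeries.coeff_C_mul, bdProj_coeff, hp, PowerSeries.coeff_map]
  rfl

/-- A common denominator for finitely many series with bounded denominators. -/
theorem bd_common_denom (r : ℕ → PowerSeries ℚ) (m : ℕ)
    (hr : ∀ i < m, ∃ D : ℤ, D ≠ 0 ∧ ∃ p : PowerSeries ℤ,
      PowerSeries.C (D : ℚ) * r i = p.map (Int.castRingHom ℚ)) :
    ∃ D : ℤ, D ≠ 0 ∧ ∀ i < m, ∃ p : PowerSeries ℤ,
      PowerSeries.C (D : ℚ) * r i = p.map (Int.castRingHom ℚ) := by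
  induction m with
  | zero => exact ⟨1, one_ne_zero, fun i hi => absurd hi (Nat.not_lt_zero i)⟩
  | succ m IH =>
    obtain ⟨D, hD, hDp⟩ := IH fun i hi => hr i (Nat.lt_succ_of_lt hi)
    obtain ⟨D', hD', p', hp'⟩ := hr m (Nat.lt_succ_self m)
    refine ⟨D * D', mul_ne_zero hD hD', fun i hi => ?_⟩
    rcases Nat.lt_succ_iff_lt_or_eq.mp hi with hi' | rfl
    · obtain ⟨p, hp⟩ := hDp i hi'
      refine ⟨PowerSeries.C D' * p, ?_⟩
      rw [map_mul, PowerSeries.map_C, ← hp]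
      simp only [Int.cast_mul, map_mul, eq_intCast]
      ring
    · refine ⟨PowerSeries.C D * p', ?_⟩
      rw [map_mul, PowerSeries.map_C, ← hp']
      simp only [Int.cast_mul, map_mul, eq_intCast]
      ring

/-- A root of a monic equation whose coefficients have bounded denominators is, after scaling by
an integer, a root of a monic polynomial with integral coefficients. -/
theorem bd_monic_step (y : PowerSeries ℚ) (m : ℕ) (r : ℕ → PowerSeries ℚ)
    (hr : ∀ i < m, ∃ D : ℤ, D ≠ 0 ∧ ∃ p : PowerSeries ℤ,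
      PowerSeries.C (D : ℚ) * r i = p.map (Int.castRingHom ℚ))
    (hy : y ^ m + ∑ i ∈ Finset.range m, r i * y ^ (m - 1 - i) = 0) :
    ∃ D : ℤ, D ≠ 0 ∧ ∃ P : Polynomial (PowerSeries ℤ), P.Monic ∧
      Polynomial.eval₂ (PowerSeries.map (Int.castRingHom ℚ)) (PowerSeries.C (D : ℚ) * y) P = 0 := by
  obtain ⟨D, hD, hDp⟩ := bd_common_denom r m hr
  have hb : ∀ i, ∃ p : PowerSeries ℤ, i < m →
      PowerSeries.C (D : ℚ) * r i = p.map (Int.castRingHom ℚ) := by
    intro i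
    by_cases hi : i < m
    · obtain ⟨p, hp⟩ := hDp i hi
      exact ⟨p, fun _ => hp⟩
    · exact ⟨0, fun h => absurd h hi⟩
  choose b hb using hb
  refine ⟨D, hD, Polynomial.X ^ m + ∑ i ∈ Finset.range m,
    Polynomial.C (PowerSeries.C (D ^ i) * b i) * Polynomial.X ^ (m - 1 - i), ?_, ?_⟩
  · apply Polynomial.monic_X_pow_add
    refine (Polynomial.degree_sum_le _ _).trans_lt ?_
    refine (Finset.sup_lt_iff (WithBot.bot_lt_coe m)).mpr fun i hi => ?_
    have hi' := Finset.mem_range.mp hi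
    refine (Polynomial.degree_C_mul_X_pow_le _ _).trans_lt ?_
    have hlt : m - 1 - i < m := by omega
    exact WithBot.coe_lt_coe.mpr hlt
  · rw [Polynomial.eval₂_add, Polynomial.eval₂_X_pow, Polynomial.eval₂_finsetSum]
    have hterm : ∀ i ∈ Finset.range m,
        Polynomial.eval₂ (PowerSeries.map (Int.castRingHom ℚ)) (PowerSeries.C (D : ℚ) * y)
          (Polynomial.C (PowerSeries.C (D ^ i) * b i) * Polynomial.X ^ (m - 1 - i)) =
        PowerSeries.C (D : ℚ) ^ m * (r i * y ^ (m - 1 - i)) := by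
      intro i hi
      have hi' := Finset.mem_range.mp hi
      rw [Polynomial.eval₂_mul, Polynomial.eval₂_C, Polynomial.eval₂_X_pow, map_mul,
        PowerSeries.map_C, ← hb i hi', mul_pow]
      have hpow : PowerSeries.C (D : ℚ) ^ m =
          PowerSeries.C (D : ℚ) ^ i * PowerSeries.C (D : ℚ) * PowerSeries.C (D : ℚ) ^ (m - 1 - i) := by
        rw [← pow_succ, ← pow_add]
        congr 1
        omega
      rw [hpow]
      simp only [eq_intCast, map_pow]
      ring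
    rw [Finset.sum_congr rfl hterm, ← Finset.mul_sum, mul_pow, ← mul_add, hy, mul_zero]

/-- Piece (L): a cusp form on `Γ₀(N)` with rational `q`-expansion has bounded denominators. -/
theorem exists_int_mul_of_rational (N : ℕ) [NeZero N] (k : ℤ) (f : CuspForm (Gamma0 N) k)
    (hf : ∀ n, (qExpansion 1 f).coeff n ∈ Set.range (algebraMap ℚ ℂ)) :
    ∃ D : ℤ, D ≠ 0 ∧ ∀ n, ∃ m : ℤ, (D : ℂ) * (qExpansion 1 f).coeff n = m := by
  obtain ⟨w, C, G, m, e, hC, hC0, hG, hfCG, hm, he, hmonic⟩ := exists_alg N k f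
  have hΓ := one_mem_strictPeriods_Gamma0 N
  obtain ⟨C₀, hC₀⟩ := hC.exists_modularForm
  obtain ⟨G₀, hG₀⟩ := hG.exists_modularForm
  have hCn : QNice C := by rw [← hC₀]; exact qnice_Gamma0 C₀
  have hGn : QNice G := by rw [← hG₀]; exact qnice_Gamma0 G₀
  have hfn : QNice ⇑f := qnice_Gamma0 f
  have henice : ∀ i < m, QNice (e i) := fun i hi => by
    obtain ⟨E, hE⟩ := he i hi
    rw [← hE]; exact qnice_SL E
  -- the rational power series
  choose yc hyc using hf
  set y : PowerSeries ℚ := PowerSeries.mk yc with hy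
  have hymap : y.map (algebraMap ℚ ℂ) = qExpansion 1 f := by
    ext n
    rw [PowerSeries.coeff_map, hy, PowerSeries.coeff_mk, hyc]
  -- the two identities on `q`-expansions
  have h1 : qExpansion 1 (⇑f) * qExpansion 1 C = qExpansion 1 G := by
    rw [← hfn.qExpansion_mul hCn]
    congr 1
    funext z; exact hfCG z
  have h2 : qExpansion 1 (⇑f) ^ m +
      ∑ i ∈ Finset.range m, qExpansion 1 (e i) * qExpansion 1 (⇑f) ^ (m - 1 - i) = 0 := by
    have hterm : ∀ i ∈ Finset.range m, QNice (e i * ⇑f ^ (m - 1 - i)) := fun i hi =>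
      (henice i (Finset.mem_range.mp hi)).mul (hfn.pow _)
    have hfun : (⇑f ^ m + ∑ i ∈ Finset.range m, e i * ⇑f ^ (m - 1 - i) : ℍ → ℂ) = 0 := by
      funext z
      simp only [Pi.add_apply, Pi.pow_apply, Finset.sum_apply, Pi.mul_apply, Pi.zero_apply]
      exact hmonic z
    have h4 := congrArg (qExpansion 1) hfun
    rw [(hfn.pow m).qExpansion_add (QNice.sum _ hterm), hfn.qExpansion_pow,
      QNice.qExpansion_sum _ hterm, UpperHalfPlane.qExpansion_zero] at h4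
    rw [← h4]
    congr 1
    refine Finset.sum_congr rfl fun i hi => ?_
    rw [(henice i (Finset.mem_range.mp hi)).qExpansion_mul (hfn.pow _), hfn.qExpansion_pow]
  -- a functional not killing a coefficient of `C`
  have hqC : qExpansion 1 C ≠ 0 := fun h0 => hC0 (hCn.eq_zero_of_qExpansion_eq_zero h0)
  obtain ⟨n₀, hn₀⟩ : ∃ n₀, (qExpansion 1 C).coeff n₀ ≠ 0 := by
    by_contra hcon
    push Not at hcon
    exact hqC (PowerSeries.ext fun n => by rw [hcon n, map_zero])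
  obtain ⟨π, hπ⟩ : ∃ π : ℂ →ₗ[ℚ] ℚ, π ((qExpansion 1 C).coeff n₀) ≠ 0 := by
    by_contra hcon
    push Not at hcon
    exact hn₀ ((Module.forall_dual_apply_eq_zero_iff ℚ _).mp hcon)
  obtain ⟨π', hπ'⟩ : ∃ π' : ℂ →ₗ[ℚ] ℚ, π' 1 = 1 := by
    obtain ⟨π₀, hπ₀⟩ : ∃ π₀ : ℂ →ₗ[ℚ] ℚ, π₀ 1 ≠ 0 := by
      by_contra hcon
      push Not at hcon
      exact one_ne_zero ((Module.forall_dual_apply_eq_zero_iff ℚ (1 : ℂ)).mp hcon)
    exact ⟨(π₀ 1)⁻¹ • π₀, by simp [hπ₀]⟩
  -- `y * A = B` with `A ≠ 0`, `A, B` integral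
  have h1' : y * bdProj π (qExpansion 1 C) = bdProj π (qExpansion 1 G) := by
    rw [← h1, ← hymap, bdProj_map_mul]
  obtain ⟨D₁, hD₁, pA, hpA⟩ := bdProj_isf hΓ hC π
  obtain ⟨D₂, hD₂, pB, hpB⟩ := bdProj_isf hΓ hG π
  -- the monic equation for `y`
  have h2' : y ^ m + ∑ i ∈ Finset.range m, bdProj π' (qExpansion 1 (e i)) * y ^ (m - 1 - i) = 0 := by
    have h5 := congrArg (bdProj π') h2
    rw [bdProj_add, bdProj_sum, bdProj_zero, ← hymap] at h5
    rw [← h5]
    congr 1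
    · have h6 := bdProj_map_mul π' (y ^ m) 1
      rw [mul_one, bdProj_one π' hπ', mul_one, map_pow] at h6
      exact h6.symm
    · refine Finset.sum_congr rfl fun i _ => ?_
      rw [mul_comm (qExpansion 1 (e i)), ← map_pow, bdProj_map_mul, mul_comm]
  have hr : ∀ i < m, ∃ D : ℤ, D ≠ 0 ∧ ∃ p : PowerSeries ℤ,
      PowerSeries.C (D : ℚ) * bdProj π' (qExpansion 1 (e i)) = p.map (Int.castRingHom ℚ) := by
    intro i hi
    obtain ⟨E, hE⟩ := he i hi
    have hisf : ISF 𝒮ℒ ((i + 1) * k) (e i) := by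
      rw [← hE]
      exact isf_levelOne _ (CuspForm.toModularFormₗ E)
    exact bdProj_isf one_mem_strictPeriods_SL hisf π'
  obtain ⟨D, hD, P, hP, hPy⟩ := bd_monic_step y m _ hr h2'
  -- apply normality of `ℤ⟦X⟧`
  have hA : PowerSeries.C D₂ * pA ≠ 0 := by
    intro h0
    have h7 := congrArg (fun p : PowerSeries ℤ => (p.map (Int.castRingHom ℚ)).coeff n₀) h0
    simp only [map_mul, PowerSeries.map_C, ← hpA, map_zero] at h7
    rw [PowerSeries.coeff_C_mul, PowerSeries.coeff_C_mul, bdProj_coeff] at h7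
    have hD₁' : (D₁ : ℚ) ≠ 0 := by exact_mod_cast hD₁
    have hD₂' : ((Int.castRingHom ℚ) D₂ : ℚ) ≠ 0 := by
      simpa using hD₂
    exact mul_ne_zero hD₂' (mul_ne_zero hD₁' hπ) h7
  have hAB : (PowerSeries.C (D : ℚ) * y) * (PowerSeries.C D₂ * pA).map (Int.castRingHom ℚ) =
      (PowerSeries.C D * (PowerSeries.C D₁ * pB)).map (Int.castRingHom ℚ) := by
    rw [map_mul, map_mul, map_mul, PowerSeries.map_C, PowerSeries.map_C, PowerSeries.map_C,
      ← hpA, ← hpB, ← h1']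
    simp only [eq_intCast]
    ring
  obtain ⟨z, hz⟩ := exists_int_of_integral_of_mul_eq _ _ _ hA hAB P hP hPy
  refine ⟨D, hD, fun n => ⟨z.coeff n, ?_⟩⟩
  have h8 := congrArg (PowerSeries.coeff n) hz
  rw [PowerSeries.coeff_C_mul, PowerSeries.coeff_map, hy, PowerSeries.coeff_mk] at h8
  rw [← hyc n]
  have h9 := congrArg (algebraMap ℚ ℂ) h8
  simpa using h9

end Fermat.Agent.S23
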