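import Fermat.Agent.S23.Defs

/-!
# S23, piece (A): automorphisms of `ℂ` move every irrational number

`exists_ringEquiv_apply_ne`: for every `x : ℂ` that is not rational there is a ring automorphism
`σ` of `ℂ` with `σ x ≠ x`.
-/

set_option autoImplicit false

namespace Fermat.Agent.S23

open UpperHalfPlane ModularForm CongruenceSubgroup
open scoped MatrixGroups

/-- Extension of automorphisms of a polynomial ring on a transcendence basis to an algebraically
closed field. -/
theorem autC_exists_ringEquiv_extends {F K : Type*} [Field F] [Field K] [Algebra F K]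
    [IsAlgClosed K] {ι : Type*} (v : ι → K) (hv : IsTranscendenceBasis F v)
    (e : MvPolynomial ι F ≃+* MvPolynomial ι F) :
    ∃ σ : K ≃+* K, ∀ p : MvPolynomial ι F,
      σ (MvPolynomial.aeval v p) = MvPolynomial.aeval v (e p) := by
  have := IsAlgClosed.isAlgClosure_of_transcendence_basis v hv
  let e' : Algebra.adjoin F (Set.range v) ≃+* Algebra.adjoin F (Set.range v) :=
    hv.1.aevalEquiv.symm.toRingEquiv.trans (e.trans hv.1.aevalEquiv.toRingEquiv)
  refine ⟨IsAlgClosure.equivOfEquiv K K e', fun p => ?_⟩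
  rw [← hv.1.algebraMap_aevalEquiv, IsAlgClosure.equivOfEquiv_algebraMap,
    ← hv.1.algebraMap_aevalEquiv]
  congr 1
  simp [e']

/-- Transcendental case. -/
theorem autC_exists_of_transcendental {k K : Type*} [Field k] [Field K] [Algebra k K]
    [IsAlgClosed K] (x : K) (hx : Transcendental k x) :
    ∃ σ : K ≃+* K, σ x ≠ x := by
  classical
  have hind : AlgebraicIndepOn k id ({x} : Set K) := by
    have h1 : AlgebraicIndependent k (fun _ : Unit => x) :=
      (algebraicIndependent_unique_type_iff (R := k) (x := fun _ : Unit => x)).mpr hx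
    have h2 : AlgebraicIndependent k ((↑) : Set.range (fun _ : Unit => x) → K) := h1.coe_range
    have h3 : Set.range (fun _ : Unit => x) = {x} := by
      ext y; simp [eq_comm]
    rw [h3] at h2
    exact h2
  obtain ⟨t, hst, ht⟩ := exists_isTranscendenceBasis_superset hind
  have hxt : x ∈ t := hst (Set.mem_singleton x)
  let x0 : t := ⟨x, hxt⟩
  let c : t → k := fun i => if i = x0 then 1 else 0
  let φ : MvPolynomial t k →ₐ[k] MvPolynomial t k :=
    MvPolynomial.aeval (fun i => MvPolynomial.X i + MvPolynomial.C (c i))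
  let ψ : MvPolynomial t k →ₐ[k] MvPolynomial t k :=
    MvPolynomial.aeval (fun i => MvPolynomial.X i - MvPolynomial.C (c i))
  have h1 : φ.comp ψ = AlgHom.id k _ := by
    apply MvPolynomial.algHom_ext
    intro i
    simp [φ, ψ]
  have h2 : ψ.comp φ = AlgHom.id k _ := by
    apply MvPolynomial.algHom_ext
    intro i
    simp [φ, ψ]
  let e : MvPolynomial t k ≃ₐ[k] MvPolynomial t k := AlgEquiv.ofAlgHom φ ψ h1 h2
  obtain ⟨σ, hσ⟩ := autC_exists_ringEquiv_extends ((↑) : t → K) ht e.toRingEquiv
  refine ⟨σ, ?_⟩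
  have h := hσ (MvPolynomial.X x0)
  have he : e.toRingEquiv (MvPolynomial.X x0) = MvPolynomial.X x0 + MvPolynomial.C 1 := by
    show φ (MvPolynomial.X x0) = _
    simp [φ, c]
  rw [he] at h
  simp only [MvPolynomial.aeval_X, map_add, MvPolynomial.aeval_C] at h
  have hx0 : ((x0 : t) : K) = x := rfl
  rw [hx0] at h
  rw [h]
  simp

/-- Algebraic case. -/
theorem autC_exists_of_isAlgebraic {k K : Type*} [Field k] [Field K] [Algebra k K]
    [IsAlgClosed K] [CharZero k] (x : K) (hx : x ∉ Set.range (algebraMap k K))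
    (hxa : IsAlgebraic k x) : ∃ σ : K ≃+* K, σ x ≠ x := by
  classical
  have hxF : x ∈ algebraicClosure k K := (mem_algebraicClosure_iff).mpr hxa
  have hgal : IsGalois k (algebraicClosure k K) := ⟨⟩
  have hx' : (⟨x, hxF⟩ : algebraicClosure k K) ∉
      Set.range (algebraMap k (algebraicClosure k K)) := by
    rintro ⟨q, hq⟩
    exact hx ⟨q, congrArg (fun y : algebraicClosure k K => (y : K)) hq⟩
  have hnf : ¬ ∀ f : (algebraicClosure k K) ≃ₐ[k] (algebraicClosure k K),
      f ⟨x, hxF⟩ = ⟨x, hxF⟩ := fun h =>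
    hx' ((InfiniteGalois.mem_range_algebraMap_iff_fixed _).mpr h)
  obtain ⟨f, hf⟩ := not_forall.mp hnf
  obtain ⟨ι, v, hv⟩ := exists_isTranscendenceBasis' (algebraicClosure k K) K
  obtain ⟨σ, hσ⟩ := autC_exists_ringEquiv_extends v hv (MvPolynomial.mapEquiv ι f.toRingEquiv)
  refine ⟨σ, ?_⟩
  have h := hσ (MvPolynomial.C ⟨x, hxF⟩)
  simp only [MvPolynomial.aeval_C, MvPolynomial.mapEquiv_apply, MvPolynomial.map_C] at h
  have h3 : (algebraMap (algebraicClosure k K) K ⟨x, hxF⟩) = x := rfl
  rw [h3] at h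
  rw [h]
  intro h4
  apply hf
  apply Subtype.ext
  exact h4

theorem exists_ringEquiv_apply_ne (x : ℂ) (hx : x ∉ Set.range (algebraMap ℚ ℂ)) :
    ∃ σ : ℂ ≃+* ℂ, σ x ≠ x := by
  by_cases hxa : IsAlgebraic ℚ x
  · exact autC_exists_of_isAlgebraic x hx hxa
  · exact autC_exists_of_transcendental x hxa

end Fermat.Agent.S23
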