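import Fermat.Agent.S23.Defs
import Fermat.Agent.S23.AutC

/-!
# S23, piece (B): Galois descent for finite-dimensional spaces of coordinate vectors

`span_rational_eq_top`: a finite-dimensional complex vector space `V` embedded by `L` into a
space of coordinate vectors `ι → ℂ`, whose image is stable under the coordinatewise action of all
ring automorphisms of `ℂ`, is spanned by vectors with rational coordinates.
-/

set_option autoImplicit false

namespace Fermat.Agent.S23

open UpperHalfPlane ModularForm CongruenceSubgroup
open scoped MatrixGroups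

theorem span_rational_eq_top {V : Type*} [AddCommGroup V] [Module ℂ V] [FiniteDimensional ℂ V]
    {ι : Type*} (L : V →ₗ[ℂ] (ι → ℂ)) (hL : Function.Injective L)
    (hσ : ∀ (σ : ℂ ≃+* ℂ) (v : V), ∃ v' : V, ∀ i, L v' i = σ (L v i)) :
    Submodule.span ℂ {v : V | ∀ i, L v i ∈ Set.range (algebraMap ℚ ℂ)} = ⊤ := by
  classical
  -- coordinate functionals
  let ψ : ι → Module.Dual ℂ V := fun i => (LinearMap.proj i).comp L
  have hψ : ∀ i v, ψ i v = L v i := fun i v => rfl
  -- they span the dual
  have hspan : Submodule.span ℂ (Set.range ψ) = ⊤ := by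
    have h1 : (Submodule.span ℂ (Set.range ψ)).dualCoannihilator = ⊥ := by
      rw [Submodule.eq_bot_iff]
      intro v hv
      rw [Submodule.mem_dualCoannihilator] at hv
      apply hL
      rw [map_zero]
      funext i
      exact hv (ψ i) (Submodule.subset_span ⟨i, rfl⟩)
    have h2 := Subspace.dualCoannihilator_dualAnnihilator_eq
      (W := Submodule.span ℂ (Set.range ψ))
    rw [h1, Submodule.dualAnnihilator_bot] at h2
    exact h2.symm
  -- extract a basis of the dual among the coordinate functionals
  obtain ⟨b, hbS, hbspan, hbli⟩ := exists_linearIndependent ℂ (Set.range ψ)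
  rw [hspan] at hbspan
  have hbfin : Finite b := hbli.finite
  have : Fintype b := Fintype.ofFinite b
  have hcard : Module.finrank ℂ (Module.Dual ℂ V) = Fintype.card b := by
    have B : Module.Basis b ℂ (Module.Dual ℂ V) :=
      Module.Basis.mk hbli (by rw [Subtype.range_coe_subtype, Set.ofPred_mem_eq]; exact hbspan.ge)
    exact Module.finrank_eq_card_basis B
  -- evaluation map
  let Φ : V →ₗ[ℂ] (b → ℂ) := LinearMap.pi fun φ => (φ : Module.Dual ℂ V)
  have hΦ : ∀ v (φ : b), Φ v φ = (φ : Module.Dual ℂ V) v := fun v φ => rfl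
  have hΦinj : Function.Injective Φ := by
    rw [injective_iff_map_eq_zero]
    intro v hv
    rw [← Module.forall_dual_apply_eq_zero_iff ℂ v]
    intro f
    have hf : f ∈ Submodule.span ℂ b := hbspan ▸ Submodule.mem_top
    induction hf using Submodule.span_induction with
    | mem x hx => exact congrFun hv ⟨x, hx⟩
    | zero => rfl
    | add x y _ _ hx hy => rw [LinearMap.add_apply, hx, hy, add_zero]
    | smul a x _ hx => rw [LinearMap.smul_apply, hx, smul_zero]
  have hfr : Module.finrank ℂ V = Module.finrank ℂ (b → ℂ) := by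
    rw [Module.finrank_fintype_fun_eq_card, ← hcard, Subspace.dual_finrank_eq]
  have hΦsurj : Function.Surjective Φ :=
    (LinearMap.injective_iff_surjective_of_finrank_eq_finrank hfr).mp hΦinj
  let e : V ≃ₗ[ℂ] (b → ℂ) := LinearEquiv.ofBijective Φ ⟨hΦinj, hΦsurj⟩
  have he : ∀ v, e v = Φ v := fun v => rfl
  -- the dual basis vectors are rational
  have hrat : ∀ φ : b, ∀ i, L (e.symm (Pi.single φ 1)) i ∈ Set.range (algebraMap ℚ ℂ) := by
    intro φ i
    by_contra hcon
    obtain ⟨σ, hσx⟩ := exists_ringEquiv_apply_ne _ hcon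
    obtain ⟨v', hv'⟩ := hσ σ (e.symm (Pi.single φ 1))
    have hveq : v' = e.symm (Pi.single φ 1) := by
      apply e.injective
      rw [LinearEquiv.apply_symm_apply]
      funext φ'
      obtain ⟨i', hi'⟩ := hbS φ'.2
      rw [he, hΦ, ← hi', hψ, hv', ← hψ, hi', ← hΦ, ← he, LinearEquiv.apply_symm_apply]
      by_cases h : φ' = φ
      · subst h
        simp
      · simp [Pi.single_eq_of_ne h]
    apply hσx
    rw [← hv' i, hveq]
  -- and they span
  rw [eq_top_iff]
  intro v _
  have hv : v = ∑ φ : b, (e v φ) • e.symm (Pi.single φ 1) := by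
    apply e.injective
    rw [map_sum]
    simp only [map_smul, LinearEquiv.apply_symm_apply]
    funext φ'
    simp [Finset.sum_apply, Pi.single_apply]
  rw [hv]
  exact Submodule.sum_mem _ fun φ _ =>
    Submodule.smul_mem _ _ (Submodule.subset_span (hrat φ))

end Fermat.Agent.S23
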