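import Fermat.Agent.S23.Defs
import Fermat.Agent.S23.Descent
import Fermat.Prelude.Thm_CongruenceSubgroup_one_mem_strictPeriods_Gamma0
import Fermat.Prelude.Sol.S_CuspForm_intLattice_fg

/-!
# S23, piece (M): final wiring

If the space of cusp forms of level `Γ₀(N)` and weight `k` is stable under coefficientwise
conjugation by `Aut(ℂ)`, and forms with rational `q`-expansion have bounded denominators, then
`CuspForm.HasIntegralStructure N k` holds.
-/

set_option autoImplicit false

namespace Fermat.Agent.S23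

open UpperHalfPlane ModularForm CongruenceSubgroup
open scoped MatrixGroups

/-- The `q`-expansion coefficient map on cusp forms of level `Γ₀(N)`, as a `ℂ`-linear map. -/
noncomputable def final_coeffL (N : ℕ) (k : ℤ) : CuspForm (Gamma0 N) k →ₗ[ℂ] (ℕ → ℂ) where
  toFun f n := (qExpansion 1 f).coeff n
  map_add' f g := by
    funext n
    simp only [FunLike.coe_add, Pi.add_apply]
    rw [ModularForm.qExpansion_add one_pos (CongruenceSubgroup.one_mem_strictPeriods_Gamma0 N) f g,
      map_add]
  map_smul' c f := by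
    funext n
    simp only [FunLike.coe_smul, Pi.smul_apply, RingHom.id_apply]
    rw [ModularForm.qExpansion_smul one_pos (CongruenceSubgroup.one_mem_strictPeriods_Gamma0 N) c f]
    simp

theorem final_coeffL_apply (N : ℕ) (k : ℤ) (f : CuspForm (Gamma0 N) k) (n : ℕ) :
    final_coeffL N k f n = (qExpansion 1 f).coeff n := rfl

theorem final_coeffL_injective (N : ℕ) [NeZero N] (k : ℤ) :
    Function.Injective (final_coeffL N k) := by
  intro f g h
  apply P2MW.S_CuspForm_intLattice_fg.W3WsD.trunc_injective N k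
  funext i
  exact congrFun h i

/-- Cusp forms of level `Γ₀(N)` and weight `k` form a finite-dimensional space (Sturm bound). -/
theorem final_finiteDimensional (N : ℕ) [NeZero N] (k : ℤ) :
    FiniteDimensional ℂ (CuspForm (Gamma0 N) k) := by
  let B := P2MW.S_CuspForm_intLattice_fg.W3WsD.sturmB N k
  let r : (ℕ → ℂ) →ₗ[ℂ] (Fin (B + 1) → ℂ) := LinearMap.funLeft ℂ ℂ (fun i : Fin (B + 1) => (i : ℕ))
  have hinj : Function.Injective (r ∘ₗ final_coeffL N k) := by
    intro f g h
    apply P2MW.S_CuspForm_intLattice_fg.W3WsD.trunc_injective N k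
    funext i
    exact congrFun h i
  exact FiniteDimensional.of_injective _ hinj

/-- **Piece (M)**: final wiring of the integral structure theorem. -/
theorem hasIntegralStructure_of (N : ℕ) [NeZero N] (k : ℤ)
    (hconj : ∀ (σ : ℂ ≃+* ℂ) (f : CuspForm (Gamma0 N) k),
      ∃ f' : CuspForm (Gamma0 N) k, qExpansion 1 f' = (qExpansion 1 f).map (σ : ℂ →+* ℂ))
    (hbd : ∀ f : CuspForm (Gamma0 N) k,
      (∀ n, (qExpansion 1 f).coeff n ∈ Set.range (algebraMap ℚ ℂ)) →
        ∃ D : ℤ, D ≠ 0 ∧ ∀ n, ∃ m : ℤ, (D : ℂ) * (qExpansion 1 f).coeff n = m) :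
    CuspForm.HasIntegralStructure N k := by
  have hfd := final_finiteDimensional N k
  have hσ : ∀ (σ : ℂ ≃+* ℂ) (v : CuspForm (Gamma0 N) k),
      ∃ v' : CuspForm (Gamma0 N) k, ∀ i, final_coeffL N k v' i = σ (final_coeffL N k v i) := by
    intro σ v
    obtain ⟨v', hv'⟩ := hconj σ v
    refine ⟨v', fun i => ?_⟩
    rw [final_coeffL_apply, final_coeffL_apply, hv', PowerSeries.coeff_map]
    rfl
  have htop := span_rational_eq_top (final_coeffL N k) (final_coeffL_injective N k) hσ
  unfold CuspForm.HasIntegralStructure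
  rw [eq_top_iff, ← htop]
  apply Submodule.span_le.mpr
  intro f hf
  obtain ⟨D, hD, hm⟩ := hbd f hf
  have hmem : (D : ℂ) • f ∈ CuspForm.intLattice N k := by
    apply Submodule.subset_span
    intro n
    obtain ⟨m, hm⟩ := hm n
    refine ⟨m, ?_⟩
    have h1 := congrFun ((final_coeffL N k).map_smul (D : ℂ) f) n
    rw [final_coeffL_apply, Pi.smul_apply, final_coeffL_apply, smul_eq_mul, hm] at h1
    exact h1
  have hDc : (D : ℂ) ≠ 0 := by exact_mod_cast hD
  have hf' : f = (D : ℂ)⁻¹ • ((D : ℂ) • f) := by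
    rw [smul_smul, inv_mul_cancel₀ hDc, one_smul]
  rw [hf']
  exact Submodule.smul_mem _ _ (Submodule.subset_span hmem)

end Fermat.Agent.S23
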