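import Fermat.Agent.S23.Conj
import Fermat.Agent.S23.BddDenom
import Fermat.Agent.S23.Final

/-!
# S23: cusp forms of level `Γ₀(N)` are spanned by forms with integral `q`-expansion

For every level `N ≥ 1` and every weight `k`, the space `S_k(Γ₀(N))` is spanned over `ℂ` by the
cusp forms whose `q`-expansion has integer coefficients.

The proof: `Aut(ℂ)`-stability of the space of `q`-expansions (`exists_conj_cuspForm`), Galois
descent to `ℚ` (`span_rational_eq_top`) and bounded denominators
(`exists_int_mul_of_rational`).
-/

set_option autoImplicit false

namespace Fermat.Agent.S23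

/-- `S_k(Γ₀(N))` has a basis of forms with integral `q`-expansion, for all `N ≥ 1` and all `k`. -/
theorem hasIntegralStructure_all (N : ℕ) [NeZero N] (k : ℤ) : CuspForm.HasIntegralStructure N k :=
  hasIntegralStructure_of N k (exists_conj_cuspForm N k) (exists_int_mul_of_rational N k)

end Fermat.Agent.S23
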