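import Fermat.Agent.S23.Alg
import Fermat.Agent.S23.ISF
import Fermat.Agent.S23.Analytic
import Fermat.Agent.S23.LevelOne

/-!
# S23, piece (K): conjugating the `q`-expansion of a cusp form on `Γ₀(N)` by an automorphism of `ℂ`
-/

set_option autoImplicit false

namespace Fermat.Agent.S23

open UpperHalfPlane ModularForm CongruenceSubgroup
open scoped MatrixGroups

/-- `PowerSeries.map` by a ring endomorphism of `ℂ` reflects zero. -/
theorem conj_map_eq_zero (σ : ℂ →+* ℂ) (p : PowerSeries ℂ) (h : p.map σ = 0) : p = 0 := by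
  ext n
  have h1 := congrArg (PowerSeries.coeff n) h
  rw [PowerSeries.coeff_map, map_zero] at h1
  rw [map_zero]
  exact (map_eq_zero σ).mp h1

/-- Conjugate of a level one cusp form. -/
theorem conj_levelOne_cuspForm (k : ℤ) (σ : ℂ →+* ℂ) (E : CuspForm 𝒮ℒ k) :
    ∃ E' : CuspForm 𝒮ℒ k, qExpansion 1 E' = (qExpansion 1 E).map σ := by
  have h1 : ISF 𝒮ℒ k ⇑(CuspForm.toModularFormₗ E) := isf_levelOne k _
  obtain ⟨F', hF', hq⟩ := h1.exists_conj one_mem_strictPeriods_SL σ
  obtain ⟨e', he'⟩ := hF'.exists_modularForm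
  have h0 : (qExpansion 1 e').coeff 0 = 0 := by
    rw [he', hq, PowerSeries.coeff_map]
    have h2 := (isCuspForm_iff_coeffZero_eq_zero _).mp (CuspForm.isCuspForm_toModularFormₗ E)
    rw [h2, map_zero]
  refine ⟨ModularForm.toCuspForm e' h0, ?_⟩
  have h3 : (⇑(ModularForm.toCuspForm e' h0) : ℍ → ℂ) = F' := by rw [← he']; rfl
  rw [h3, hq]
  rfl

/-- Piece (K): the space of cusp forms on `Γ₀(N)` is stable under conjugating `q`-expansion
coefficients by an automorphism of `ℂ`. -/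
theorem exists_conj_cuspForm (N : ℕ) [NeZero N] (k : ℤ) (σ : ℂ ≃+* ℂ)
    (f : CuspForm (Gamma0 N) k) :
    ∃ f' : CuspForm (Gamma0 N) k, qExpansion 1 f' = (qExpansion 1 f).map (σ : ℂ →+* ℂ) := by
  obtain ⟨w, C, G, m, e, hC, hC0, hG, hfCG, hm, he, hmonic⟩ := exists_alg N k f
  have hΓ := one_mem_strictPeriods_Gamma0 N
  obtain ⟨C₀, hC₀⟩ := hC.exists_modularForm
  obtain ⟨G₀, hG₀⟩ := hG.exists_modularForm
  have hCn : QNice C := by rw [← hC₀]; exact qnice_Gamma0 C₀
  have hGn : QNice G := by rw [← hG₀]; exact qnice_Gamma0 G₀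
  have hfn : QNice ⇑f := qnice_Gamma0 f
  obtain ⟨C', hC', hqC'⟩ := hC.exists_conj hΓ (σ : ℂ →+* ℂ)
  obtain ⟨G', hG', hqG'⟩ := hG.exists_conj hΓ (σ : ℂ →+* ℂ)
  obtain ⟨c, hc⟩ := hC'.exists_modularForm
  obtain ⟨g, hg⟩ := hG'.exists_modularForm
  have hc0 : c ≠ 0 := by
    intro h0
    have h1 : qExpansion 1 C' = 0 := by
      rw [← hc, h0]
      exact UpperHalfPlane.qExpansion_zero 1
    rw [hqC'] at h1
    exact hC0 (hCn.eq_zero_of_qExpansion_eq_zero (conj_map_eq_zero _ _ h1))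
  -- conjugates of the coefficients of the monic equation
  have he' : ∀ i, ∃ F : ℍ → ℂ, i < m →
      (∃ E' : CuspForm 𝒮ℒ ((i + 1) * k), ⇑E' = F) ∧
        qExpansion 1 F = (qExpansion 1 (e i)).map (σ : ℂ →+* ℂ) := by
    intro i
    by_cases hi : i < m
    · obtain ⟨E, hE⟩ := he i hi
      obtain ⟨E', hE'⟩ := conj_levelOne_cuspForm _ (σ : ℂ →+* ℂ) E
      exact ⟨⇑E', fun _ => ⟨⟨E', rfl⟩, by rw [hE', hE]⟩⟩
    · exact ⟨0, fun h => absurd h hi⟩
  choose e' he' using he'
  have henice : ∀ i < m, QNice (e i) := fun i hi => by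
    obtain ⟨E, hE⟩ := he i hi
    rw [← hE]; exact qnice_SL E
  refine exists_cuspForm_of_formal N k w c hc0 g m hm e' (fun i hi => (he' i hi).1) _ ?_ ?_
  · -- `φ * qExpansion c = qExpansion g`
    have h1 : qExpansion 1 (⇑f) * qExpansion 1 C = qExpansion 1 G := by
      rw [← hfn.qExpansion_mul hCn]
      congr 1
      funext z; exact hfCG z
    rw [hc, hg, hqC', hqG', ← h1, map_mul]
  · -- the monic equation
    have h2 : qExpansion 1 (⇑f) ^ m +
        ∑ i ∈ Finset.range m, qExpansion 1 (e i) * qExpansion 1 (⇑f) ^ (m - 1 - i) = 0 := by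
      have hterm : ∀ i ∈ Finset.range m, QNice (e i * ⇑f ^ (m - 1 - i)) := fun i hi =>
        (henice i (Finset.mem_range.mp hi)).mul (hfn.pow _)
      have hfun : (⇑f ^ m + ∑ i ∈ Finset.range m, e i * ⇑f ^ (m - 1 - i) : ℍ → ℂ) = 0 := by
        funext z
        simp only [Pi.add_apply, Pi.pow_apply, Finset.sum_apply, Pi.mul_apply, Pi.zero_apply]
        exact hmonic z
      have h4 := congrArg (qExpansion 1) hfun
      rw [(hfn.pow m).qExpansion_add (QNice.sum _ hterm), hfn.qExpansion_pow,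
        QNice.qExpansion_sum _ hterm, UpperHalfPlane.qExpansion_zero] at h4
      rw [← h4]
      congr 1
      refine Finset.sum_congr rfl fun i hi => ?_
      rw [(henice i (Finset.mem_range.mp hi)).qExpansion_mul (hfn.pow _), hfn.qExpansion_pow]
    have h3 := congrArg (PowerSeries.map (σ : ℂ →+* ℂ)) h2
    rw [map_add, map_pow, map_sum, map_zero] at h3
    rw [← h3]
    congr 1
    refine Finset.sum_congr rfl fun i hi => ?_
    rw [map_mul, map_pow, (he' i (Finset.mem_range.mp hi)).2]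

end Fermat.Agent.S23
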