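import Mathlib
import Fermat.Prelude.Def_CuspForm_IntegralStructure

/-!
# S23: common definitions

`IsIntPS p` : the complex power series `p` has integer coefficients.
`ISF Γ k F` : the function `F : ℍ → ℂ` is a finite `ℂ`-linear combination of (the functions of)
modular forms of weight `k` and level `Γ` whose `q`-expansions (period `1`) have integer
coefficients.
-/

set_option autoImplicit false

namespace Fermat.Agent.S23

open UpperHalfPlane ModularForm
open scoped MatrixGroups

/-- The complex power series `p` has integer coefficients. -/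
def IsIntPS (p : PowerSeries ℂ) : Prop := ∀ n : ℕ, ∃ m : ℤ, p.coeff n = (m : ℂ)

/-- Generators of `ISF`: functions of modular forms with integral `q`-expansion. -/
def isfGen (Γ : Subgroup (GL (Fin 2) ℝ)) (k : ℤ) : Set (ℍ → ℂ) :=
  {G | ∃ f : ModularForm Γ k, ⇑f = G ∧ IsIntPS (qExpansion 1 G)}

/-- `F` is a `ℂ`-linear combination of modular forms of weight `k`, level `Γ`, with integral
`q`-expansions. -/
def ISF (Γ : Subgroup (GL (Fin 2) ℝ)) (k : ℤ) (F : ℍ → ℂ) : Prop :=
  F ∈ Submodule.span ℂ (isfGen Γ k)

end Fermat.Agent.S23
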