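import Fermat.Agent.S23.Defs

/-!
# S23, piece (K): Newton identities — power sums in a `ℚ`-subalgebra force the elementary
symmetric functions to lie in it.
-/

set_option autoImplicit false

namespace Fermat.Agent.S23

open UpperHalfPlane ModularForm CongruenceSubgroup
open scoped MatrixGroups

theorem newton_aeval_esymm_mem {S : Type*} [CommRing S] [Algebra ℚ S] (B : Subalgebra ℚ S)
    {ι : Type*} [Fintype ι] (x : ι → S)
    (hp : ∀ j : ℕ, 1 ≤ j → ∑ i, x i ^ j ∈ B) (k : ℕ) :
    MvPolynomial.aeval x (MvPolynomial.esymm ι ℚ k) ∈ B := by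
  classical
  induction k using Nat.strong_induction_on with
  | _ k ih =>
    rcases Nat.eq_zero_or_pos k with rfl | hk
    · rw [MvPolynomial.esymm_zero, map_one]
      exact B.one_mem
    · have h := congrArg (MvPolynomial.aeval x) (MvPolynomial.mul_esymm_eq_sum ι ℚ k)
      simp only [map_mul, map_natCast, map_pow, map_neg, map_one, map_sum] at h
      have hk' : (k : S) * MvPolynomial.aeval x (MvPolynomial.esymm ι ℚ k) ∈ B := by
        rw [h]
        refine B.mul_mem (B.pow_mem (B.neg_mem B.one_mem) _) (B.sum_mem fun a ha => ?_)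
        rw [Finset.mem_filter] at ha
        have ha1 : a.1 + a.2 = k := Finset.HasAntidiagonal.mem_antidiagonal.mp ha.1
        refine B.mul_mem (B.mul_mem (B.pow_mem (B.neg_mem B.one_mem) _) (ih a.1 ha.2)) ?_
        have h2 : MvPolynomial.aeval x (MvPolynomial.psum ι ℚ a.2) = ∑ i, x i ^ a.2 := by
          simp [MvPolynomial.psum]
        rw [h2]
        exact hp a.2 (by omega)
      have hk0 : (k : ℚ) ≠ 0 := Nat.cast_ne_zero.mpr hk.ne'
      have h3 : MvPolynomial.aeval x (MvPolynomial.esymm ι ℚ k) =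
          (k : ℚ)⁻¹ • ((k : S) * MvPolynomial.aeval x (MvPolynomial.esymm ι ℚ k)) := by
        have h4 : (k : S) = algebraMap ℚ S (k : ℚ) := (map_natCast (algebraMap ℚ S) k).symm
        rw [h4, ← Algebra.smul_def, smul_smul, inv_mul_cancel₀ hk0, one_smul]
      rw [h3]
      exact B.smul_mem hk' _

/-- Multiset form. -/
theorem newton_esymm_mem {S : Type*} [CommRing S] [Algebra ℚ S] (B : Subalgebra ℚ S)
    {ι : Type*} [Fintype ι] (x : ι → S)
    (hp : ∀ j : ℕ, 1 ≤ j → ∑ i, x i ^ j ∈ B) (k : ℕ) :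
    (Finset.univ.val.map x).esymm k ∈ B := by
  rw [← MvPolynomial.aeval_esymm_eq_multiset_esymm ι ℚ k x]
  exact newton_aeval_esymm_mem B x hp k

/-- Polynomial-coefficient form: all coefficients of `∏ i, (X - C (x i))` lie in `B`. -/
theorem newton_coeff_prod_X_sub_C_mem {S : Type*} [CommRing S] [Algebra ℚ S] (B : Subalgebra ℚ S)
    {ι : Type*} [Fintype ι] (x : ι → S)
    (hp : ∀ j : ℕ, 1 ≤ j → ∑ i, x i ^ j ∈ B) (n : ℕ) :
    (∏ i, (Polynomial.X - Polynomial.C (x i))).coeff n ∈ B := by
  classical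
  have h : (∏ i, (Polynomial.X - Polynomial.C (x i))) =
      ((Finset.univ.val.map x).map fun t => Polynomial.X - Polynomial.C t).prod := by
    rw [Multiset.map_map]
    rfl
  rw [h, Multiset.prod_X_sub_X_eq_sum_esymm, Polynomial.finsetSum_coeff]
  refine B.sum_mem fun j _ => ?_
  rw [← mul_assoc, ← Polynomial.C_1, ← Polynomial.C_neg, ← Polynomial.C_pow, ← Polynomial.C_mul,
    Polynomial.coeff_C_mul_X_pow]
  split_ifs
  · exact B.mul_mem (B.pow_mem (B.neg_mem B.one_mem) _) (newton_esymm_mem B x hp j)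
  · exact B.zero_mem

end Fermat.Agent.S23
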