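import Fermat.Agent.S23.LevelOne
import Fermat.Agent.S23.QNice

/-!
# S23, piece (I): level-one modular forms are closed under coefficientwise conjugation of
`q`-expansions by field automorphisms of `ℂ`.
-/

set_option autoImplicit false

namespace Fermat.Agent.S23

open UpperHalfPlane ModularForm CongruenceSubgroup
open scoped MatrixGroups

/-- A power series with integer coefficients is fixed by coefficientwise ring automorphisms. -/
theorem sigma1_map_of_isIntPS {p : PowerSeries ℂ} (hp : IsIntPS p) (σ : ℂ ≃+* ℂ) :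
    p.map (σ : ℂ →+* ℂ) = p := by
  ext n
  obtain ⟨m, hm⟩ := hp n
  rw [PowerSeries.coeff_map, hm]
  simp

/-- Coefficientwise conjugation of power series commutes with scalar multiplication up to
conjugating the scalar. -/
theorem sigma1_map_smul (a : ℂ) (p : PowerSeries ℂ) (σ : ℂ ≃+* ℂ) :
    (a • p).map (σ : ℂ →+* ℂ) = σ a • p.map (σ : ℂ →+* ℂ) := by
  ext n
  simp

/-- **Piece (I)**: level-one modular forms are closed under coefficientwise `Aut(ℂ)`. -/
theorem levelOne_conj (k : ℤ) (f : ModularForm 𝒮ℒ k) (σ : ℂ ≃+* ℂ) :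
    ∃ g : ModularForm 𝒮ℒ k, qExpansion 1 ⇑g = (qExpansion 1 ⇑f).map (σ : ℂ →+* ℂ) := by
  have key : ∀ F : ℍ → ℂ, ISF 𝒮ℒ k F →
      ∃ g h : ModularForm 𝒮ℒ k, ⇑h = F ∧
        qExpansion 1 ⇑g = (qExpansion 1 F).map (σ : ℂ →+* ℂ) := by
    intro F hF
    induction hF using Submodule.span_induction with
    | mem F hF =>
      obtain ⟨f0, rfl, hint⟩ := hF
      exact ⟨f0, f0, rfl, (sigma1_map_of_isIntPS hint σ).symm⟩
    | zero =>
      refine ⟨0, 0, rfl, ?_⟩
      rw [FunLike.coe_zero, UpperHalfPlane.qExpansion_zero, map_zero]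
    | add F G _ _ ihF ihG =>
      obtain ⟨g1, h1, rfl, e1⟩ := ihF
      obtain ⟨g2, h2, rfl, e2⟩ := ihG
      refine ⟨g1 + g2, h1 + h2, rfl, ?_⟩
      rw [FunLike.coe_add, (qnice_SL g1).qExpansion_add (qnice_SL g2),
        (qnice_SL h1).qExpansion_add (qnice_SL h2), map_add, e1, e2]
    | smul a F _ ihF =>
      obtain ⟨g1, h1, rfl, e1⟩ := ihF
      refine ⟨σ a • g1, a • h1, rfl, ?_⟩
      rw [FunLike.coe_smul, (qnice_SL g1).qExpansion_smul,
        (qnice_SL h1).qExpansion_smul, sigma1_map_smul, e1]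
  obtain ⟨g, h, _, e⟩ := key ⇑f (isf_levelOne k f)
  exact ⟨g, e⟩

/-- Cusp form version of `levelOne_conj`. -/
theorem levelOne_conj_cusp (k : ℤ) (f : CuspForm 𝒮ℒ k) (σ : ℂ ≃+* ℂ) :
    ∃ g : CuspForm 𝒮ℒ k, qExpansion 1 ⇑g = (qExpansion 1 ⇑f).map (σ : ℂ →+* ℂ) := by
  obtain ⟨g, hg⟩ := levelOne_conj k (CuspForm.toModularFormₗ f) σ
  have h0 : (qExpansion 1 ⇑f).coeff 0 = 0 :=
    CuspFormClass.qExpansion_coeff_zero f one_pos one_mem_strictPeriods_SL
  have hg0 : (qExpansion 1 ⇑g).coeff 0 = 0 := by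
    rw [hg, PowerSeries.coeff_map]
    have : (qExpansion 1 ⇑(CuspForm.toModularFormₗ f)).coeff 0 = 0 := h0
    rw [this, map_zero]
  exact ⟨ModularForm.toCuspForm g hg0, hg⟩

end Fermat.Agent.S23
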